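import Mathlib

set_option autoImplicit false

namespace Fermat.Agent.IntStruct.BoundedDenom

theorem rat_isInt_of_mul_pow (a : ℤ) (ha : a ≠ 0) (x : ℚ)
    (h : ∀ n : ℕ, ∃ z : ℤ, (a : ℚ) * x ^ n = z) : ∃ z : ℤ, x = z := by
  have hden : ∀ n : ℕ, (x.den : ℤ) ^ n ∣ a := by
    intro n
    obtain ⟨z, hz⟩ := h n
    have hd : (x.den : ℚ) ≠ 0 := by exact_mod_cast x.den_nz
    have hx : x * (x.den : ℚ) = x.num := Rat.mul_den_eq_num x
    have h1 : (a : ℚ) * (x.num : ℚ) ^ n = z * (x.den : ℚ) ^ n := by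
      rw [← hz, ← hx]
      ring
    have h2 : a * x.num ^ n = z * (x.den : ℤ) ^ n := by exact_mod_cast h1
    have hcop : IsCoprime ((x.den : ℤ) ^ n) (x.num ^ n) := by
      apply IsCoprime.pow
      rw [Int.isCoprime_iff_gcd_eq_one, Int.gcd_comm]
      exact x.reduced
    exact hcop.dvd_of_dvd_mul_right ⟨z, by rw [h2]; ring⟩
  have hone : x.den = 1 := by
    by_contra hne
    have h2 : 2 ≤ x.den := by
      have := x.den_pos
      omega
    have h3 := Int.le_of_dvd (Int.natAbs_pos.mpr ha |> fun h => by exact_mod_cast h)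
      ((Int.dvd_natAbs).mpr (hden a.natAbs))
    have h4 : (2 : ℤ) ^ a.natAbs ≤ (x.den : ℤ) ^ a.natAbs := by
      apply pow_le_pow_left₀ (by norm_num)
      exact_mod_cast h2
    have h5 : a.natAbs < 2 ^ a.natAbs := Nat.lt_two_pow_self
    have h6 : (a.natAbs : ℤ) < (2 : ℤ) ^ a.natAbs := by exact_mod_cast h5
    omega
  exact ⟨x.num, ((Rat.den_eq_one_iff x).mp hone).symm⟩

/-- Rational power series with integer coefficients. -/
noncomputable def intQ : Subring (PowerSeries ℚ) :=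
  (PowerSeries.map (Int.castRingHom ℚ)).range

theorem mem_intQ_iff (P : PowerSeries ℚ) :
    P ∈ intQ ↔ ∀ n, ∃ m : ℤ, P.coeff n = (m : ℚ) := by
  constructor
  · rintro ⟨Q, rfl⟩ n
    exact ⟨Q.coeff n, by simp⟩
  · intro h
    choose c hc using h
    refine ⟨PowerSeries.mk c, ?_⟩
    ext n
    simp [hc]

/-- `ℤ⟦q⟧` is completely integrally closed in `ℚ⟦q⟧`. -/
theorem mem_intQ_of_mul_pow (E ψ : PowerSeries ℚ) (hE : E ∈ intQ) (hE0 : E ≠ 0)
    (h : ∀ n : ℕ, E * ψ ^ n ∈ intQ) : ψ ∈ intQ := by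
  rw [mem_intQ_iff]
  intro m
  induction m using Nat.strong_induction_on with
  | _ m ih =>
  -- the integral truncation
  set P : PowerSeries ℚ := ((PowerSeries.trunc m ψ : Polynomial ℚ) : PowerSeries ℚ) with hP
  have hPmem : P ∈ intQ := by
    rw [mem_intQ_iff]
    intro n
    rw [hP, Polynomial.coeff_coe, PowerSeries.coeff_trunc]
    split_ifs with hn
    · exact ih n hn
    · exact ⟨0, by simp⟩
  have hdvd : PowerSeries.X ^ m ∣ ψ - P := by
    rw [PowerSeries.X_pow_dvd_iff]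
    intro n hn
    rw [map_sub, hP, Polynomial.coeff_coe, PowerSeries.coeff_trunc, if_pos hn, sub_self]
  obtain ⟨ψ'', hψ''⟩ := hdvd
  have hcψ : PowerSeries.constantCoeff ψ'' = ψ.coeff m := by
    have h1 : (ψ - P).coeff m = ψ.coeff m := by
      rw [map_sub, hP, Polynomial.coeff_coe, PowerSeries.coeff_trunc, if_neg (lt_irrefl m),
        sub_zero]
    rw [← h1, hψ'', PowerSeries.coeff_X_pow_mul', if_pos le_rfl, Nat.sub_self,
      PowerSeries.coeff_zero_eq_constantCoeff]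
  -- the leading coefficient of `E`
  have hex : ∃ r, E.coeff r ≠ 0 := by
    by_contra hcon
    push Not at hcon
    exact hE0 (PowerSeries.ext (by simpa using hcon))
  classical
  set r := Nat.find hex with hr
  have hEr : E.coeff r ≠ 0 := Nat.find_spec hex
  have hdvdE : PowerSeries.X ^ r ∣ E := by
    rw [PowerSeries.X_pow_dvd_iff]
    intro n hn
    by_contra hne
    exact Nat.find_min hex hn hne
  obtain ⟨E'', hE''⟩ := hdvdE
  have hcE : PowerSeries.constantCoeff E'' = E.coeff r := by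
    conv_rhs => rw [hE'']
    rw [PowerSeries.coeff_X_pow_mul', if_pos le_rfl, Nat.sub_self,
      PowerSeries.coeff_zero_eq_constantCoeff]
  obtain ⟨a, ha⟩ := (mem_intQ_iff E).mp hE r
  have ha0 : a ≠ 0 := by
    rintro rfl
    exact hEr (by simpa using ha)
  apply rat_isInt_of_mul_pow a ha0
  intro n
  have hmem : E * (ψ - P) ^ n ∈ intQ := by
    rw [sub_eq_add_neg, add_pow, Finset.mul_sum]
    refine Subring.sum_mem _ fun j _ => ?_
    have : E * (ψ ^ j * (-P) ^ (n - j) * (n.choose j : PowerSeries ℚ)) =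
        (E * ψ ^ j) * ((-P) ^ (n - j) * (n.choose j : PowerSeries ℚ)) := by ring
    rw [this]
    exact mul_mem (h j) (mul_mem (pow_mem (neg_mem hPmem) _) (natCast_mem _ _))
  obtain ⟨z, hz⟩ := (mem_intQ_iff _).mp hmem (r + m * n)
  refine ⟨z, ?_⟩
  rw [← hz, hψ'', hE'']
  have : PowerSeries.X ^ r * E'' * (PowerSeries.X ^ m * ψ'') ^ n =
      PowerSeries.X ^ (r + m * n) * (E'' * ψ'' ^ n) := by
    rw [mul_pow, ← pow_mul, pow_add]
    ring
  rw [this, PowerSeries.coeff_X_pow_mul', if_pos le_rfl, Nat.sub_self,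
    PowerSeries.coeff_zero_eq_constantCoeff, map_mul, map_pow, hcE, hcψ, ha]


/-- From a monic relation over a subring `R` and a denominator `e`, all powers have the common
denominator `e ^ d`. -/
theorem mul_pow_mem_of_monic {A : Type*} [CommRing A] (R : Subring A) (ψ e : A) (he : e ∈ R)
    (heψ : e * ψ ∈ R) (d : ℕ) (b : Fin d → A) (hb : ∀ i, b i ∈ R)
    (hmonic : ψ ^ d + ∑ i : Fin d, b i * ψ ^ (i : ℕ) = 0) (n : ℕ) : e ^ d * ψ ^ n ∈ R := by
  induction n using Nat.strong_induction_on with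
  | _ n ih =>
  rcases lt_or_ge n d with hn | hn
  · have : e ^ d * ψ ^ n = e ^ (d - n) * (e * ψ) ^ n := by
      rw [mul_pow, ← mul_assoc, ← pow_add, Nat.sub_add_cancel hn.le]
    rw [this]
    exact mul_mem (pow_mem he _) (pow_mem heψ _)
  · have h1 : ψ ^ d = - ∑ i : Fin d, b i * ψ ^ (i : ℕ) := eq_neg_of_add_eq_zero_left hmonic
    have h2 : e ^ d * ψ ^ n = - ∑ i : Fin d, b i * (e ^ d * ψ ^ (n - d + i)) := by
      have : ψ ^ n = ψ ^ (n - d) * ψ ^ d := by rw [← pow_add, Nat.sub_add_cancel hn]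
      rw [this, h1, mul_neg, mul_neg, Finset.mul_sum, Finset.mul_sum]
      congr 1
      refine Finset.sum_congr rfl fun i _ => ?_
      rw [pow_add]
      ring
    rw [h2]
    refine neg_mem (Subring.sum_mem _ fun i _ => mul_mem (hb i) (ih _ ?_))
    have := i.2
    omega

/-- Apply a `ℚ`-linear functional coefficientwise. -/
noncomputable def coeffwise (l : ℂ →ₗ[ℚ] ℚ) : PowerSeries ℂ →ₗ[ℚ] PowerSeries ℚ where
  toFun s := PowerSeries.mk fun n => l (s.coeff n)
  map_add' s t := by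
    ext n
    simp
  map_smul' c s := by
    ext n
    simp

@[simp] theorem coeff_coeffwise (l : ℂ →ₗ[ℚ] ℚ) (s : PowerSeries ℂ) (n : ℕ) :
    (coeffwise l s).coeff n = l (s.coeff n) := by
  simp [coeffwise]

theorem coeffwise_mul_map (l : ℂ →ₗ[ℚ] ℚ) (s : PowerSeries ℂ) (φ₀ : PowerSeries ℚ) :
    coeffwise l (s * PowerSeries.map (algebraMap ℚ ℂ) φ₀) = coeffwise l s * φ₀ := by
  ext n
  rw [coeff_coeffwise, PowerSeries.coeff_mul, PowerSeries.coeff_mul, map_sum]
  refine Finset.sum_congr rfl fun p _ => ?_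
  rw [PowerSeries.coeff_map, coeff_coeffwise, mul_comm, ← Algebra.smul_def, map_smul, smul_eq_mul,
    mul_comm]

/-- Bounded denominators. -/
def HasBddDen (s : PowerSeries ℚ) : Prop := ∃ D : ℤ, D ≠ 0 ∧ (D : PowerSeries ℚ) * s ∈ intQ

theorem HasBddDen.add {s t : PowerSeries ℚ} (hs : HasBddDen s) (ht : HasBddDen t) :
    HasBddDen (s + t) := by
  obtain ⟨D, hD, hs⟩ := hs
  obtain ⟨D', hD', ht⟩ := ht
  refine ⟨D * D', mul_ne_zero hD hD', ?_⟩
  have : ((D * D' : ℤ) : PowerSeries ℚ) * (s + t) =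
      (D' : PowerSeries ℚ) * ((D : PowerSeries ℚ) * s) +
        (D : PowerSeries ℚ) * ((D' : PowerSeries ℚ) * t) := by
    push_cast
    ring
  rw [this]
  exact add_mem (mul_mem (intCast_mem _ _) hs) (mul_mem (intCast_mem _ _) ht)


end Fermat.Agent.IntStruct.BoundedDenom

namespace Fermat.Agent.IntStruct

/-- the complex span of the power series with integer coefficients -/
def intSeriesSpan : Submodule ℂ (PowerSeries ℂ) :=
  Submodule.span ℂ {s : PowerSeries ℂ | ∀ n, ∃ m : ℤ, PowerSeries.coeff n s = (m : ℂ)}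

end Fermat.Agent.IntStruct

namespace Fermat.Agent.IntStruct.BoundedDenom

theorem hasBddDen_coeffwise {s : PowerSeries ℂ} (hs : s ∈ intSeriesSpan) :
    ∀ l : ℂ →ₗ[ℚ] ℚ, HasBddDen (coeffwise l s) := by
  induction hs using Submodule.span_induction with
  | mem s hs =>
    intro l
    refine ⟨(l 1).den, by exact_mod_cast (l 1).den_nz, ?_⟩
    rw [mem_intQ_iff]
    intro n
    obtain ⟨m, hm⟩ := hs n
    refine ⟨(l 1).num * m, ?_⟩
    have h1 : l (m : ℂ) = (m : ℚ) * l 1 := by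
      have : (m : ℂ) = (m : ℚ) • (1 : ℂ) := by
        rw [Algebra.smul_def]
        simp
      rw [this, map_smul, smul_eq_mul]
    have h2 : (((l 1).den : ℤ) : PowerSeries ℚ) = PowerSeries.C (((l 1).den : ℚ)) := by
      simp
    rw [h2, PowerSeries.coeff_C_mul, coeff_coeffwise, hm, h1]
    push_cast
    rw [← Rat.mul_den_eq_num (l 1)]
    ring
  | zero =>
    intro l
    exact ⟨1, one_ne_zero, by simp [zero_mem]⟩
  | add s t _ _ hs ht =>
    intro l
    rw [map_add]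
    exact (hs l).add (ht l)
  | smul a s _ hs =>
    intro l
    have : coeffwise l (a • s) = coeffwise (l.comp ((LinearMap.mulLeft ℂ a).restrictScalars ℚ)) s := by
      ext n
      simp
    rw [this]
    exact hs _

theorem exists_common_den {ι : Type*} [Fintype ι] (s : ι → PowerSeries ℚ)
    (hs : ∀ i, HasBddDen (s i)) : ∃ D : ℤ, D ≠ 0 ∧ ∀ i, (D : PowerSeries ℚ) * s i ∈ intQ := by
  classical
  choose D hD hs using hs
  refine ⟨∏ i, D i, Finset.prod_ne_zero_iff.mpr fun i _ => hD i, fun i => ?_⟩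
  obtain ⟨k, hk⟩ := Finset.dvd_prod_of_mem D (Finset.mem_univ i)
  rw [hk]
  have : ((D i * k : ℤ) : PowerSeries ℚ) * s i = (k : PowerSeries ℚ) * ((D i : PowerSeries ℚ) * s i) := by
    push_cast
    ring
  rw [this]
  exact mul_mem (intCast_mem _ _) (hs i)

theorem exists_functional_ne (x : ℂ) (hx : x ≠ 0) : ∃ l : ℂ →ₗ[ℚ] ℚ, l x ≠ 0 := by
  by_contra hcon
  push Not at hcon
  exact hx ((Module.forall_dual_apply_eq_zero_iff ℚ x).mp hcon)

end Fermat.Agent.IntStruct.BoundedDenom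

namespace Fermat.Agent.IntStruct

open BoundedDenom in
/-- L6 -/
theorem exists_int_mul_of_integral (φ : PowerSeries ℂ)
    (hφ : ∀ n, ∃ r : ℚ, PowerSeries.coeff n φ = (r : ℂ))
    (h g : PowerSeries ℂ) (hh : h ∈ intSeriesSpan) (hg : g ∈ intSeriesSpan) (h0 : h ≠ 0)
    (hrel : h * φ = g)
    (d : ℕ) (c : Fin d → PowerSeries ℂ) (hc : ∀ i, c i ∈ intSeriesSpan)
    (hmonic : φ ^ d + ∑ i : Fin d, c i * φ ^ (i : ℕ) = 0) :
    ∃ D : ℤ, D ≠ 0 ∧ ∀ n, ∃ m : ℤ, (D : ℂ) * PowerSeries.coeff n φ = (m : ℂ) := by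
  choose r hr using hφ
  set φ₀ : PowerSeries ℚ := PowerSeries.mk r with hφ₀
  have hφmap : φ = PowerSeries.map (algebraMap ℚ ℂ) φ₀ := by
    ext n
    simp [hφ₀, hr]
  -- the functional normalised at `1`
  obtain ⟨l, hl⟩ := exists_functional_ne 1 one_ne_zero
  set l₁ : ℂ →ₗ[ℚ] ℚ := (l 1)⁻¹ • l with hl₁
  have hl₁1 : l₁ 1 = 1 := by
    simp [hl₁, hl]
  have hone : coeffwise l₁ 1 = 1 := by
    ext n
    rw [coeff_coeffwise, PowerSeries.coeff_one, PowerSeries.coeff_one]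
    split_ifs
    · exact hl₁1
    · exact map_zero _
  have hpow : ∀ (s : PowerSeries ℂ) (i : ℕ), coeffwise l₁ (s * φ ^ i) = coeffwise l₁ s * φ₀ ^ i := by
    intro s i
    rw [hφmap, ← map_pow, coeffwise_mul_map]
  have hmonic₀ : φ₀ ^ d + ∑ i : Fin d, coeffwise l₁ (c i) * φ₀ ^ (i : ℕ) = 0 := by
    have := congrArg (coeffwise l₁) hmonic
    rw [map_add, map_sum, map_zero, ← one_mul (φ ^ d), hpow, hone, one_mul] at this
    simpa only [hpow] using this
  -- the functional detecting `h`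
  obtain ⟨n₀, hn₀⟩ : ∃ n, h.coeff n ≠ 0 := by
    by_contra hcon
    push Not at hcon
    exact h0 (PowerSeries.ext (by simpa using hcon))
  obtain ⟨l₂, hl₂⟩ := exists_functional_ne _ hn₀
  set h₂ := coeffwise l₂ h with hh₂
  set g₂ := coeffwise l₂ g with hg₂
  have hh₂0 : h₂ ≠ 0 := by
    intro hz
    apply hl₂
    rw [← coeff_coeffwise, ← hh₂, hz, map_zero]
  have hrel₀ : h₂ * φ₀ = g₂ := by
    rw [hh₂, hg₂, ← hrel, hφmap, coeffwise_mul_map]
  -- denominators
  obtain ⟨D₁, hD₁, hc'⟩ := exists_common_den (fun i => coeffwise l₁ (c i))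
    (fun i => hasBddDen_coeffwise (hc i) l₁)
  obtain ⟨D₂, hD₂, hh₂'⟩ := hasBddDen_coeffwise hh l₂
  obtain ⟨D₃, hD₃, hg₂'⟩ := hasBddDen_coeffwise hg l₂
  set ψ : PowerSeries ℚ := (D₁ : PowerSeries ℚ) * φ₀ with hψ
  set e : PowerSeries ℚ := (D₃ : PowerSeries ℚ) * ((D₂ : PowerSeries ℚ) * h₂) with he
  have hcast : ∀ D : ℤ, D ≠ 0 → (D : PowerSeries ℚ) ≠ 0 := by
    intro D hD hz
    have h1 := congrArg (PowerSeries.constantCoeff (R := ℚ)) hz
    rw [map_intCast, map_zero] at h1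
    exact hD (by exact_mod_cast h1)
  have he0 : e ≠ 0 := mul_ne_zero (hcast _ hD₃) (mul_ne_zero (hcast _ hD₂) hh₂0)
  have hemem : e ∈ intQ := mul_mem (intCast_mem _ _) hh₂'
  have heψ : e * ψ ∈ intQ := by
    have : e * ψ = (D₁ : PowerSeries ℚ) * ((D₂ : PowerSeries ℚ) * ((D₃ : PowerSeries ℚ) * g₂)) := by
      rw [← hrel₀, he, hψ]
      ring
    rw [this]
    exact mul_mem (intCast_mem _ _) (mul_mem (intCast_mem _ _) hg₂')
  have hmonicψ : ψ ^ d + ∑ i : Fin d,
      ((D₁ : PowerSeries ℚ) ^ (d - 1 - (i : ℕ)) * ((D₁ : PowerSeries ℚ) * coeffwise l₁ (c i))) *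
        ψ ^ (i : ℕ) = 0 := by
    have h1 : ψ ^ d + ∑ i : Fin d,
      ((D₁ : PowerSeries ℚ) ^ (d - 1 - (i : ℕ)) * ((D₁ : PowerSeries ℚ) * coeffwise l₁ (c i))) *
        ψ ^ (i : ℕ) = (D₁ : PowerSeries ℚ) ^ d *
          (φ₀ ^ d + ∑ i : Fin d, coeffwise l₁ (c i) * φ₀ ^ (i : ℕ)) := by
      rw [mul_add, Finset.mul_sum, hψ, mul_pow]
      congr 1
      refine Finset.sum_congr rfl fun i _ => ?_
      have hi : d = (d - 1 - (i : ℕ)) + 1 + (i : ℕ) := by
        have := i.2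
        omega
      have hi' : (D₁ : PowerSeries ℚ) ^ d =
          (D₁ : PowerSeries ℚ) ^ (d - 1 - (i : ℕ)) * (D₁ : PowerSeries ℚ) *
            (D₁ : PowerSeries ℚ) ^ (i : ℕ) := by
        rw [← pow_succ, ← pow_add, ← hi]
      rw [mul_pow, hi']
      ring
    rw [h1, hmonic₀, mul_zero]
  have hψmem : ψ ∈ intQ := by
    refine mem_intQ_of_mul_pow (e ^ d) ψ (pow_mem hemem d) (pow_ne_zero d he0) fun n => ?_
    exact mul_pow_mem_of_monic intQ ψ e hemem heψ d _
      (fun i => mul_mem (pow_mem (intCast_mem _ _) _) (hc' i)) hmonicψ n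
  refine ⟨D₁, hD₁, fun n => ?_⟩
  obtain ⟨m, hm⟩ := (mem_intQ_iff ψ).mp hψmem n
  refine ⟨m, ?_⟩
  have h2 : (D₁ : PowerSeries ℚ) = PowerSeries.C (D₁ : ℚ) := by simp
  rw [hψ, h2, PowerSeries.coeff_C_mul, hφ₀, PowerSeries.coeff_mk] at hm
  rw [hr n]
  exact_mod_cast hm

end Fermat.Agent.IntStruct
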