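import Mathlib

set_option autoImplicit false

open UpperHalfPlane SlashInvariantForm
open scoped MatrixGroups Manifold ModularForm Topology

noncomputable section

namespace Fermat.Agent.IntStruct

variable {𝒢 : Subgroup (GL (Fin 2) ℝ)} [𝒢.IsArithmetic] {k : ℤ}

local notation "𝒬" => 𝒮ℒ ⧸ (𝒢.subgroupOf 𝒮ℒ)

/-- elementary symmetric function of the conjugates of `f`. -/
def esymmFun (f : CuspForm 𝒢 k) (j : ℕ) : ℍ → ℂ :=
  let := Fintype.ofFinite 𝒬
  ∑ s ∈ Finset.powersetCard j (Finset.univ : Finset 𝒬), ∏ q ∈ s, quotientFunc f q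

lemma esymmFun_slash (f : CuspForm 𝒢 k) (j : ℕ) (h : GL (Fin 2) ℝ) (hh : h ∈ 𝒮ℒ) :
    esymmFun f j ∣[k * j] h = esymmFun f j := by
  classical
  let := Fintype.ofFinite 𝒬
  unfold esymmFun
  rw [SlashAction.sum_slash]
  have key : ∀ s ∈ Finset.powersetCard j (Finset.univ : Finset 𝒬),
      (∏ q ∈ s, quotientFunc f q) ∣[k * j] h =
        ∏ q ∈ (MulAction.toPerm (⟨h, hh⟩ : 𝒮ℒ)⁻¹).finsetCongr s, quotientFunc f q := by
    intro s hs
    have hc : s.card = j := (Finset.mem_powersetCard_univ.mp hs)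
    rw [← hc, ModularForm.prod_slash, Subgroup.HasDetPlusMinusOne.abs_det hh, one_zpow, one_smul,
      Equiv.finsetCongr_apply, Finset.prod_map]
    refine Finset.prod_congr rfl fun q _ => ?_
    rw [quotientFunc_smul f hh]
    rfl
  rw [Finset.sum_congr rfl key]
  refine Finset.sum_equiv (MulAction.toPerm (⟨h, hh⟩ : 𝒮ℒ)⁻¹).finsetCongr ?_ (fun _ _ => rfl)
  intro s
  simp

lemma quotientFunc_mdiff (f : CuspForm 𝒢 k) (q : 𝒬) : MDiff (quotientFunc f q) := by
  induction q using Quotient.inductionOn with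
  | h r => exact (CuspForm.translate f r.val⁻¹).holo'

lemma esymmFun_mdiff (f : CuspForm 𝒢 k) (j : ℕ) : MDiff (esymmFun f j) := by
  unfold esymmFun
  exact .sum fun s _ => .prod fun q _ => quotientFunc_mdiff f q

lemma quotientFunc_slash_isZeroAtImInfty (f : CuspForm 𝒢 k) (q : 𝒬) {c : OnePoint ℝ}
    (hc : IsCusp c 𝒮ℒ) (γ : GL (Fin 2) ℝ) (hγ : γ • OnePoint.infty = c) :
    IsZeroAtImInfty (quotientFunc f q ∣[k] γ) := by
  induction q using Quotient.inductionOn with
  | h r =>
    obtain ⟨r, hr⟩ := r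
    refine (CuspForm.translate f _).zero_at_cusps' ?_ γ hγ
    simpa using hc.of_isFiniteRelIndex_conj hr

lemma esymmFun_isZeroAt (f : CuspForm 𝒢 k) {j : ℕ} (hj : 0 < j) {c : OnePoint ℝ}
    (hc : IsCusp c 𝒮ℒ) : c.IsZeroAt (esymmFun f j) (k * j) := by
  classical
  let := Fintype.ofFinite 𝒬
  intro γ hγ
  unfold esymmFun
  rw [SlashAction.sum_slash, IsZeroAtImInfty, Filter.ZeroAtFilter, Finset.sum_fn]
  rw [show (0 : ℂ) = ∑ s ∈ Finset.powersetCard j (Finset.univ : Finset 𝒬), 0 by simp]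
  refine tendsto_finsetSum _ fun s hs => ?_
  have hcard : s.card = j := (Finset.mem_powersetCard_univ.mp hs)
  rw [← hcard, ModularForm.prod_slash]
  have hne : s.Nonempty := Finset.card_pos.mp (hcard ▸ hj)
  have h0 : Filter.Tendsto (fun z => ∏ q ∈ s, (quotientFunc f q ∣[k] γ) z) atImInfty (𝓝 0) := by
    have := tendsto_finsetProd s (fun q _ => quotientFunc_slash_isZeroAtImInfty f q hc γ hγ)
    simpa [Finset.prod_const, hne.card_pos.ne'] using this
  have h1 := h0.const_smul (|γ.det.val| ^ ((s.card : ℤ) - 1))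
  rw [smul_zero] at h1
  refine h1.congr fun z => ?_
  simp [Finset.prod_apply]

/-- the elementary symmetric functions of the conjugates, as level one cusp forms. -/
def esymmForm (f : CuspForm 𝒢 k) (j : ℕ) (hj : 0 < j) : CuspForm 𝒮ℒ (k * j) where
  toFun := esymmFun f j
  slash_action_eq' := esymmFun_slash f j
  holo' := esymmFun_mdiff f j
  zero_at_cusps' hc := esymmFun_isZeroAt f hj hc

@[simp] lemma coe_esymmForm (f : CuspForm 𝒢 k) (j : ℕ) (hj : 0 < j) :
    ⇑(esymmForm f j hj) = esymmFun f j := rfl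

lemma sum_esymmFun_eq_zero (f : CuspForm 𝒢 k) (z : ℍ) :
    ∑ j ∈ Finset.range (Nat.card 𝒬 + 1),
      (-1) ^ j * (esymmFun f j z * f z ^ (Nat.card 𝒬 - j)) = 0 := by
  classical
  let := Fintype.ofFinite 𝒬
  have h := Multiset.prod_X_sub_X_eq_sum_esymm
    ((Finset.univ : Finset 𝒬).val.map fun q => quotientFunc f q z)
  have h2 := congrArg (Polynomial.eval (f z)) h
  rw [Multiset.map_map, Multiset.card_map, Finset.card_val, Finset.card_univ,
    ← Nat.card_eq_fintype_card] at h2
  have h3 : Polynomial.eval (f z) (Multiset.map ((fun t => Polynomial.X - Polynomial.C t) ∘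
      fun q => quotientFunc f q z) (Finset.univ : Finset 𝒬).val).prod = 0 := by
    change Polynomial.eval (f z) (∏ q : 𝒬, (Polynomial.X - Polynomial.C (quotientFunc f q z))) = 0
    rw [Polynomial.eval_prod]
    refine Finset.prod_eq_zero (Finset.mem_univ (⟦1⟧ : 𝒬)) ?_
    simp
  rw [h3] at h2
  rw [h2]
  simp only [Polynomial.eval_finsetSum, Polynomial.eval_mul, Polynomial.eval_pow,
    Polynomial.eval_neg, Polynomial.eval_one, Polynomial.eval_C, Polynomial.eval_X,
    Finset.esymm_map_val]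
  refine Finset.sum_congr rfl fun j _ => ?_
  simp [esymmFun, Finset.sum_apply, Finset.prod_apply]

lemma esymmFun_zero (f : CuspForm 𝒢 k) : esymmFun f 0 = 1 := by
  simp [esymmFun]

/-- A cusp form on an arithmetic group is a root of a monic polynomial whose lower coefficients
are level one cusp forms. -/
theorem exists_monic_relation (f : CuspForm 𝒢 k) :
    ∃ (d : ℕ) (e : (i : Fin d) → CuspForm 𝒮ℒ (k * (d - i))),
      ∀ z, f z ^ d + ∑ i : Fin d, e i z * f z ^ (i : ℕ) = 0 := by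
  classical
  set d := Nat.card 𝒬 with hd
  refine ⟨d, fun i => CuspForm.mcast (by rw [Nat.cast_sub i.2.le])
    (((-1 : ℂ) ^ (d - i : ℕ)) • esymmForm f (d - i) (Nat.sub_pos_of_lt i.2)), fun z => ?_⟩
  have h := sum_esymmFun_eq_zero f z
  rw [← hd, ← Finset.sum_range_reflect, Finset.sum_range_succ] at h
  simp only [add_tsub_cancel_right, Nat.sub_self, pow_zero, esymmFun_zero, Pi.one_apply, one_mul,
    Nat.sub_zero] at h
  rw [add_comm, ← h, Finset.sum_range]
  congr 1
  refine Finset.sum_congr rfl fun i _ => ?_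
  have hi : d - (d - (i : ℕ)) = i := by have := i.2; omega
  rw [hi]
  change ((-1 : ℂ) ^ (d - (i : ℕ)) * esymmFun f (d - i) z) * f z ^ (i : ℕ) = _
  ring

end Fermat.Agent.IntStruct
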