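import Mathlib

set_option autoImplicit false

open UpperHalfPlane
open scoped MatrixGroups Manifold ModularForm Topology

noncomputable section

namespace Fermat.Agent.IntStruct

/-- modular forms with integral `q`-expansion -/
def intSet (Γ : Subgroup (GL (Fin 2) ℝ)) (n : ℤ) : Set (ModularForm Γ n) :=
  {g | ∀ m, ∃ c : ℤ, (qExpansion 1 g).coeff m = (c : ℂ)}

/-- complex span of the modular forms with integral `q`-expansion -/
def intSpan (Γ : Subgroup (GL (Fin 2) ℝ)) [Γ.HasDetOne] (n : ℤ) :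
    Submodule ℂ (ModularForm Γ n) :=
  Submodule.span ℂ (intSet Γ n)

/-- the function `F` is (the function of) an element of `intSpan Γ n`. -/
def IS (Γ : Subgroup (GL (Fin 2) ℝ)) [Γ.HasDetOne] (n : ℤ) (F : ℍ → ℂ) : Prop :=
  ∃ g ∈ intSpan Γ n, ⇑g = F

variable {Γ : Subgroup (GL (Fin 2) ℝ)} [Γ.HasDetOne]

namespace IS

variable {n m : ℤ} {F G : ℍ → ℂ}

lemma add (hF : IS Γ n F) (hG : IS Γ n G) : IS Γ n (F + G) := by
  obtain ⟨f, hf, rfl⟩ := hF
  obtain ⟨g, hg, rfl⟩ := hG
  exact ⟨f + g, add_mem hf hg, rfl⟩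

lemma smul (c : ℂ) (hF : IS Γ n F) : IS Γ n (c • F) := by
  obtain ⟨f, hf, rfl⟩ := hF
  exact ⟨c • f, Submodule.smul_mem _ c hf, rfl⟩

lemma neg (hF : IS Γ n F) : IS Γ n (-F) := by
  obtain ⟨f, hf, rfl⟩ := hF
  exact ⟨-f, neg_mem hf, rfl⟩

lemma zero : IS Γ n 0 := ⟨0, zero_mem _, rfl⟩

lemma cast (h : n = m) (hF : IS Γ n F) : IS Γ m F := h ▸ hF

lemma sum {ι : Type*} {s : Finset ι} {F : ι → ℍ → ℂ} (h : ∀ i ∈ s, IS Γ n (F i)) :
    IS Γ n (∑ i ∈ s, F i) := by
  classical
  induction s using Finset.induction_on with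
  | empty => simpa using zero
  | insert a s ha ih =>
    rw [Finset.sum_insert ha]
    exact (h a (Finset.mem_insert_self a s)).add
      (ih fun i hi => h i (Finset.mem_insert_of_mem hi))

variable (hΓ : (1 : ℝ) ∈ Γ.strictPeriods)
include hΓ

lemma mul_mem_intSet {f : ModularForm Γ n} {g : ModularForm Γ m} (hf : f ∈ intSet Γ n)
    (hg : g ∈ intSet Γ m) : f.mul g ∈ intSet Γ (n + m) := by
  intro j
  rw [ModularForm.qExpansion_mul one_pos hΓ, PowerSeries.coeff_mul]
  choose a ha using hf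
  choose b hb using hg
  refine ⟨∑ p ∈ Finset.HasAntidiagonal.antidiagonal j, a p.1 * b p.2, ?_⟩
  push_cast
  exact Finset.sum_congr rfl fun p _ => by rw [ha, hb]

lemma mul_mem_intSpan {f : ModularForm Γ n} {g : ModularForm Γ m} (hf : f ∈ intSpan Γ n)
    (hg : g ∈ intSpan Γ m) : f.mul g ∈ intSpan Γ (n + m) := by
  induction hf using Submodule.span_induction with
  | mem x hx =>
    induction hg using Submodule.span_induction with
    | mem y hy => exact Submodule.subset_span (mul_mem_intSet hΓ hx hy)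
    | zero =>
      convert zero_mem (intSpan Γ (n + m)) using 1
      exact DFunLike.coe_injective (by simp [ModularForm.coe_mul])
    | add y₁ y₂ _ _ h₁ h₂ =>
      convert add_mem h₁ h₂ using 1
      exact DFunLike.coe_injective (by simp [ModularForm.coe_mul, mul_add])
    | smul c y _ h =>
      convert Submodule.smul_mem _ c h using 1
      exact DFunLike.coe_injective (by simp [ModularForm.coe_mul])
  | zero =>
    convert zero_mem (intSpan Γ (n + m)) using 1
    exact DFunLike.coe_injective (by simp [ModularForm.coe_mul])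
  | add x₁ x₂ _ _ h₁ h₂ =>
    convert add_mem h₁ h₂ using 1
    exact DFunLike.coe_injective (by simp [ModularForm.coe_mul, add_mul])
  | smul c x _ h =>
    convert Submodule.smul_mem _ c h using 1
    exact DFunLike.coe_injective (by simp [ModularForm.coe_mul])

lemma mul (hF : IS Γ n F) (hG : IS Γ m G) : IS Γ (n + m) (F * G) := by
  obtain ⟨f, hf, rfl⟩ := hF
  obtain ⟨g, hg, rfl⟩ := hG
  exact ⟨f.mul g, mul_mem_intSpan hΓ hf hg, rfl⟩

omit hΓ in
lemma one : IS Γ 0 1 := by
  refine ⟨1, Submodule.subset_span fun j => ?_, rfl⟩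
  rw [ModularForm.qExpansion_one, PowerSeries.coeff_one]
  split_ifs
  · exact ⟨1, by simp⟩
  · exact ⟨0, by simp⟩

lemma prod {ι : Type*} {s : Finset ι} {w : ι → ℤ} {F : ι → ℍ → ℂ}
    (h : ∀ i ∈ s, IS Γ (w i) (F i)) : IS Γ (∑ i ∈ s, w i) (∏ i ∈ s, F i) := by
  classical
  induction s using Finset.induction_on with
  | empty => simpa using one
  | insert a s ha ih =>
    rw [Finset.sum_insert ha, Finset.prod_insert ha]
    exact (h a (Finset.mem_insert_self a s)).mul hΓ
      (ih fun i hi => h i (Finset.mem_insert_of_mem hi))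

lemma pow (hF : IS Γ n F) (j : ℕ) : IS Γ (j * n) (F ^ j) := by
  have := prod hΓ (s := Finset.range j) (w := fun _ => n) (F := fun _ => F) fun _ _ => hF
  simpa using this

lemma det {ι : Type*} [Fintype ι] [DecidableEq ι] {a b : ι → ℤ} {M : Matrix ι ι (ℍ → ℂ)}
    (h : ∀ i j, IS Γ (a i + b j) (M i j)) : IS Γ (∑ i, a i + ∑ j, b j) M.det := by
  rw [Matrix.det_apply]
  refine sum fun σ _ => ?_
  have h1 : IS Γ (∑ i, a i + ∑ j, b j) (∏ i, M (σ i) i) := by
    refine (prod hΓ (s := Finset.univ) (w := fun i => a (σ i) + b i) fun i _ => h (σ i) i).cast ?_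
    rw [Finset.sum_add_distrib, Equiv.sum_comp σ a]
  rcases Int.units_eq_one_or (Equiv.Perm.sign σ) with hs | hs
  · rw [hs, one_smul]; exact h1
  · rw [hs, Units.neg_smul, one_smul]; exact h1.neg

end IS

lemma map_qExpansion_of_mem_intSet {n : ℤ} (σ : ℂ →+* ℂ) {g : ModularForm Γ n}
    (hg : g ∈ intSet Γ n) : PowerSeries.map σ (qExpansion 1 g) = qExpansion 1 g := by
  ext j
  obtain ⟨c, hc⟩ := hg j
  rw [PowerSeries.coeff_map, hc, map_intCast]

/-- Galois conjugation on the span of the integral forms. -/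
lemma exists_conj_of_mem_intSpan (hΓ : (1 : ℝ) ∈ Γ.strictPeriods) {n : ℤ} (σ : ℂ →+* ℂ)
    {g : ModularForm Γ n} (hg : g ∈ intSpan Γ n) :
    ∃ g' ∈ intSpan Γ n, qExpansion 1 g' = PowerSeries.map σ (qExpansion 1 g) := by
  induction hg using Submodule.span_induction with
  | mem x hx => exact ⟨x, Submodule.subset_span hx, (map_qExpansion_of_mem_intSet σ hx).symm⟩
  | zero => exact ⟨0, zero_mem _, by simp [qExpansion_zero]⟩
  | add x y _ _ hx hy =>
    obtain ⟨x', hx', hx''⟩ := hx
    obtain ⟨y', hy', hy''⟩ := hy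
    refine ⟨x' + y', add_mem hx' hy', ?_⟩
    rw [FunLike.coe_add, FunLike.coe_add, ModularForm.qExpansion_add one_pos hΓ,
      ModularForm.qExpansion_add one_pos hΓ, map_add, hx'', hy'']
  | smul c x _ hx =>
    obtain ⟨x', hx', hx''⟩ := hx
    refine ⟨σ c • x', Submodule.smul_mem _ _ hx', ?_⟩
    rw [FunLike.coe_smul, FunLike.coe_smul,
      ModularForm.qExpansion_smul one_pos hΓ, ModularForm.qExpansion_smul one_pos hΓ, hx'']
    ext j
    simp

end Fermat.Agent.IntStruct
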