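import Mathlib

set_option autoImplicit false

open UpperHalfPlane
open scoped MatrixGroups Manifold

namespace Fermat.Agent.IntStruct.LevelOne

open ModularForm ModularFormClass EisensteinSeries

/-- The subring of complex power series with integer coefficients. -/
noncomputable def intSeries : Subring (PowerSeries ℂ) :=
  (PowerSeries.map (Int.castRingHom ℂ)).range

theorem mem_intSeries_iff (P : PowerSeries ℂ) :
    P ∈ intSeries ↔ ∀ n, ∃ m : ℤ, P.coeff n = (m : ℂ) := by
  constructor
  · rintro ⟨Q, rfl⟩ n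
    exact ⟨Q.coeff n, by simp⟩
  · intro h
    choose c hc using h
    refine ⟨PowerSeries.mk c, ?_⟩
    ext n
    simp [hc]

theorem qExpansion_E₄_mem : qExpansion 1 E₄ ∈ intSeries := by
  rw [mem_intSeries_iff]
  intro n
  rw [E_qExpansion_coeff _ ⟨2, rfl⟩]
  split_ifs with h
  · exact ⟨1, by simp⟩
  · refine ⟨240 * (ArithmeticFunction.sigma 3 n : ℤ), ?_⟩
    norm_num [show bernoulli 4 = -1 / 30 by decide +kernel]

theorem qExpansion_E₆_mem : qExpansion 1 E₆ ∈ intSeries := by
  rw [mem_intSeries_iff]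
  intro n
  rw [E_qExpansion_coeff _ ⟨3, rfl⟩]
  split_ifs with h
  · exact ⟨1, by simp⟩
  · refine ⟨-504 * (ArithmeticFunction.sigma 5 n : ℤ), ?_⟩
    norm_num [show bernoulli 6 = 1 / 42 by decide +kernel]


/-- Level one forms with integral `q`-expansion. -/
def intForms (k : ℤ) : Set (ModularForm 𝒮ℒ k) := {G | qExpansion 1 G ∈ intSeries}

/-- Multiplication by a fixed level one form, as a linear map. -/
noncomputable def mulLeftₗ {k₁ k₂ k : ℤ} (h : k₁ + k₂ = k) (D : ModularForm 𝒮ℒ k₁) :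
    ModularForm 𝒮ℒ k₂ →ₗ[ℂ] ModularForm 𝒮ℒ k where
  toFun G := ModularForm.mcast h (D.mul G)
  map_add' G₁ G₂ := by
    ext z
    simp [mul_add]
  map_smul' c G := by
    ext z
    simp
    ring

theorem mulLeftₗ_apply {k₁ k₂ k : ℤ} (h : k₁ + k₂ = k) (D : ModularForm 𝒮ℒ k₁)
    (G : ModularForm 𝒮ℒ k₂) (z : ℍ) : mulLeftₗ h D G z = D z * G z := rfl

theorem qExpansion_mulLeftₗ {k₁ k₂ k : ℤ} (h : k₁ + k₂ = k) (D : ModularForm 𝒮ℒ k₁)
    (G : ModularForm 𝒮ℒ k₂) :
    qExpansion 1 (mulLeftₗ h D G) = qExpansion 1 D * qExpansion 1 G := by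
  rw [← ModularForm.qExpansion_mul one_pos one_mem_strictPeriods_SL D G]
  rfl

theorem mulLeftₗ_mem_intForms {k₁ k₂ k : ℤ} (h : k₁ + k₂ = k) {D : ModularForm 𝒮ℒ k₁}
    (hD : D ∈ intForms k₁) {G : ModularForm 𝒮ℒ k₂} (hG : G ∈ intForms k₂) :
    mulLeftₗ h D G ∈ intForms k := by
  show qExpansion 1 (mulLeftₗ h D G) ∈ intSeries
  rw [qExpansion_mulLeftₗ]
  exact mul_mem hD hG

theorem pow_mem_intForms {k : ℤ} {D : ModularForm 𝒮ℒ k} (hD : D ∈ intForms k) (n : ℕ) :
    D.pow n ∈ intForms (n * k) := by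
  show qExpansion 1 (D.pow n) ∈ intSeries
  rw [ModularForm.qExpansion_pow one_pos one_mem_strictPeriods_SL]
  exact pow_mem hD n

/-- `E₄ ^ a * E₆ ^ b`. -/
noncomputable def eisMonomial (a b : ℕ) {k : ℤ} (h : (a : ℤ) * 4 + (b : ℤ) * 6 = k) :
    ModularForm 𝒮ℒ k :=
  mulLeftₗ h (E₄.pow a) (E₆.pow b)

theorem eisMonomial_mem (a b : ℕ) {k : ℤ} (h : (a : ℤ) * 4 + (b : ℤ) * 6 = k) :
    eisMonomial a b h ∈ intForms k :=
  mulLeftₗ_mem_intForms h (pow_mem_intForms qExpansion_E₄_mem a)
    (pow_mem_intForms qExpansion_E₆_mem b)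

theorem eisMonomial_coeff_zero (a b : ℕ) {k : ℤ} (h : (a : ℤ) * 4 + (b : ℤ) * 6 = k) :
    (qExpansion 1 (eisMonomial a b h)).coeff 0 = 1 := by
  rw [eisMonomial, qExpansion_mulLeftₗ, ModularForm.qExpansion_pow one_pos one_mem_strictPeriods_SL,
    ModularForm.qExpansion_pow one_pos one_mem_strictPeriods_SL]
  have h4 := E_qExpansion_coeff_zero (k := 4) (by norm_num) ⟨2, rfl⟩
  have h6 := E_qExpansion_coeff_zero (k := 6) (by norm_num) ⟨3, rfl⟩
  simp only [PowerSeries.coeff_zero_eq_constantCoeff] at h4 h6 ⊢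
  rw [map_mul, map_pow, map_pow, h4, h6]
  simp

/-- `E₄ ^ 3 - E₆ ^ 2 = 1728 Δ`. -/
noncomputable def discForm : ModularForm 𝒮ℒ 12 :=
  ModularForm.mcast (by decide) (E₄.pow 3) - ModularForm.mcast (by decide) (E₆.pow 2)

theorem discForm_apply (z : ℍ) : discForm z = 1728 * discriminant z := by
  rw [discriminant_eq_E₄_cube_sub_E₆_sq z]
  simp only [discForm, coe_mcast, coe_pow, sub_apply, Pi.pow_apply]
  ring

theorem discForm_mem : discForm ∈ intForms 12 := by
  show qExpansion 1 discForm ∈ intSeries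
  simp only [discForm, FunLike.coe_sub, coe_mcast,
    ModularForm.qExpansion_sub one_pos one_mem_strictPeriods_SL,
    ModularForm.qExpansion_pow one_pos one_mem_strictPeriods_SL]
  exact sub_mem (pow_mem qExpansion_E₄_mem 3) (pow_mem qExpansion_E₆_mem 2)

theorem span_intForms (k : ℤ) : Submodule.span ℂ (intForms k) = ⊤ := by
  induction hn : k.toNat using Nat.strong_induction_on generalizing k with
  | _ n ih =>
  rw [eq_top_iff]
  rintro F -
  rcases lt_or_ge k 0 with hk | hk
  · rw [rank_zero_iff_forall_zero.mp (levelOne_neg_weight_rank_zero hk) F]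
    exact zero_mem _
  rcases Int.even_or_odd k with hke | hko
  swap
  · rw [levelOne_odd_weight_eq_zero hko F]
    exact zero_mem _
  rcases eq_or_lt_of_le hk with rfl | hk0
  · obtain ⟨c, hc⟩ := levelOne_weight_zero_const F
    have : F = c • (1 : ModularForm 𝒮ℒ 0) := by
      ext z
      simp [hc]
    rw [this]
    refine Submodule.smul_mem _ _ (Submodule.subset_span ?_)
    show qExpansion 1 (1 : ModularForm 𝒮ℒ 0) ∈ intSeries
    rw [ModularForm.qExpansion_one]
    exact one_mem _
  rcases eq_or_ne k 2 with rfl | hk2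
  · rw [rank_zero_iff_forall_zero.mp levelOne_weight_two_rank_zero F]
    exact zero_mem _
  -- now `k ≥ 4` even
  obtain ⟨a, b, hab⟩ : ∃ a b : ℕ, (a : ℤ) * 4 + (b : ℤ) * 6 = k := by
    obtain ⟨m, hm⟩ := hke
    have hm2 : 2 ≤ m := by omega
    rcases Int.even_or_odd m with ⟨j, hj⟩ | ⟨j, hj⟩
    · exact ⟨j.toNat, 0, by have : 0 ≤ j := by omega
                            rw [Int.toNat_of_nonneg this]; push_cast; omega⟩
    · exact ⟨(j - 1).toNat, 1, by have : 0 ≤ j - 1 := by omega
                                  rw [Int.toNat_of_nonneg this]; push_cast; omega⟩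
  set E := eisMonomial a b hab with hE
  set c := (qExpansion 1 F).coeff 0 with hc
  have h0 : (qExpansion 1 ⇑(F - c • E)).coeff 0 = 0 := by
    rw [FunLike.coe_sub, ModularForm.qExpansion_sub one_pos one_mem_strictPeriods_SL,
      FunLike.coe_smul, ModularForm.qExpansion_smul one_pos one_mem_strictPeriods_SL, map_sub,
      PowerSeries.coeff_smul, eisMonomial_coeff_zero]
    simp [hc]
  set F₁ := CuspForm.discriminantEquiv (toCuspForm (F - c • E) h0) with hF₁
  have hF₁mem : F₁ ∈ Submodule.span ℂ (intForms (k - 12)) := by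
    rw [ih (k - 12).toNat (by omega) (k - 12) rfl]
    exact Submodule.mem_top
  have key : F = c • E + (1 / 1728 : ℂ) • mulLeftₗ (by ring) discForm F₁ := by
    ext z
    have := discriminant_mul_discriminantEquiv_apply (toCuspForm (F - c • E) h0) z
    rw [toCuspForm_apply] at this
    simp only [add_apply, smul_apply, mulLeftₗ_apply, discForm_apply,
      smul_eq_mul, sub_apply] at this ⊢
    rw [← hF₁] at this
    linear_combination -this
  rw [key]
  refine add_mem (Submodule.smul_mem _ _ (Submodule.subset_span (eisMonomial_mem a b hab)))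
    (Submodule.smul_mem _ _ ?_)
  have hmap : Submodule.map (mulLeftₗ (k := k) (by ring) discForm)
      (Submodule.span ℂ (intForms (k - 12))) ≤ Submodule.span ℂ (intForms k) := by
    rw [Submodule.map_span, Submodule.span_le]
    rintro _ ⟨G, hG, rfl⟩
    exact Submodule.subset_span (mulLeftₗ_mem_intForms _ discForm_mem hG)
  exact hmap (Submodule.mem_map_of_mem hF₁mem)

end Fermat.Agent.IntStruct.LevelOne

namespace Fermat.Agent.IntStruct

/-- L1: every level one modular form is a complex combination of level one forms with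
integral `q`-expansion. -/
theorem levelOne_mem_span_int (k : ℤ) (F : ModularForm 𝒮ℒ k) :
    F ∈ Submodule.span ℂ
      {g : ModularForm 𝒮ℒ k | ∀ n, ∃ m : ℤ, (qExpansion 1 g).coeff n = (m : ℂ)} := by
  have h : F ∈ Submodule.span ℂ (LevelOne.intForms k) := by
    rw [LevelOne.span_intForms]
    exact Submodule.mem_top
  refine Submodule.span_mono ?_ h
  intro g hg
  exact (LevelOne.mem_intSeries_iff _).mp hg

end Fermat.Agent.IntStruct
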