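import Mathlib
import Fermat.Prelude.Def_ModularForm_HeckeOperator
import Fermat.Prelude.Thm_ModularFormClass_qCoeff_heckeT
import Fermat.Prelude.Thm_ModularFormClass_qCoeff_heckeU
import Fermat.Prelude.Thm_ModularForm_periodic_heckeT_comp_ofComplex
import Fermat.Prelude.Thm_ModularForm_periodic_heckeU_comp_ofComplex
import Fermat.Prelude.Thm_ModularForm_mdifferentiable_heckeT
import Fermat.Prelude.Thm_ModularForm_mdifferentiable_heckeU
import Fermat.Prelude.Thm_ModularForm_isBoundedAtImInfty_heckeT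
import Fermat.Prelude.Thm_ModularForm_isBoundedAtImInfty_heckeU
import Fermat.Agent.IntStruct.IntSpan

set_option autoImplicit false

open UpperHalfPlane Matrix.SpecialLinearGroup
open scoped MatrixGroups Manifold ModularForm Topology

noncomputable section

namespace Fermat.Agent.IntStruct

open ModularForm (heckeDiagMatrix upperTriangularGL val_heckeDiagMatrix val_upperTriangularGL)

lemma mapGL_apply' (g : SL(2, ℤ)) (i j : Fin 2) :
    (mapGL ℝ g : GL (Fin 2) ℝ) i j = ((g i j : ℤ) : ℝ) := by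
  simp

lemma det_eq_SL2 (g : SL(2, ℤ)) : g 0 0 * g 1 1 - g 0 1 * g 1 0 = 1 := by
  have h := g.det_coe
  rwa [Matrix.det_fin_two] at h

lemma int_factor (N p q r s : ℤ) (hN : 0 < N) (hdet : p * s - q * r = 1) :
    ∃ u v A B a b d : ℤ, u * A + v * B = 1 ∧ 0 < a ∧ 0 < d ∧ a * d = N ∧ u * a = N * p ∧
      v * a = r ∧ u * b - B * d = N * q ∧ v * b + A * d = s := by
  have hxy : N * p ≠ 0 ∨ r ≠ 0 := by
    by_contra h
    push Not at h
    obtain ⟨h1, h2⟩ := h
    have hp : p = 0 := by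
      rcases mul_eq_zero.mp h1 with h | h
      · exact absurd h hN.ne'
      · exact h
    rw [hp, h2] at hdet
    simp at hdet
  have ha0 : (0 : ℤ) < (Int.gcd (N * p) r : ℤ) := by
    have : 0 < Int.gcd (N * p) r := Int.gcd_pos_iff.mpr hxy
    exact_mod_cast this
  obtain ⟨u, hu⟩ : (Int.gcd (N * p) r : ℤ) ∣ N * p := Int.gcd_dvd_left _ _
  obtain ⟨v, hv⟩ : (Int.gcd (N * p) r : ℤ) ∣ r := Int.gcd_dvd_right _ _
  have hbez := Int.gcd_eq_gcd_ab (N * p) r
  generalize (Int.gcd (N * p) r : ℤ) = a at *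
  generalize Int.gcdA (N * p) r = A at *
  generalize Int.gcdB (N * p) r = B at *
  have huv : u * A + v * B = 1 := by
    have : a * (u * A + v * B) = a * 1 := by
      rw [mul_one]
      calc a * (u * A + v * B) = (a * u) * A + (a * v) * B := by ring
        _ = a := by rw [← hu, ← hv, ← hbez]
    exact mul_left_cancel₀ ha0.ne' this
  have had : a * (u * s - v * (N * q)) = N := by
    calc a * (u * s - v * (N * q)) = (a * u) * s - (a * v) * (N * q) := by ring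
      _ = N := by rw [← hu, ← hv]; linear_combination N * hdet
  refine ⟨u, v, A, B, a, A * (N * q) + B * s, u * s - v * (N * q), huv, ha0, ?_, had, ?_, ?_, ?_, ?_⟩
  · by_contra hneg
    push Not at hneg
    have := mul_nonpos_of_nonneg_of_nonpos ha0.le hneg
    omega
  · rw [hu]; ring
  · rw [hv]; ring
  · linear_combination (N * q) * huv
  · linear_combination s * huv

/-- Hermite normal form of `diag(N,1) * g`. -/
lemma exists_factor {N : ℕ} (hN : N ≠ 0) (g : SL(2, ℤ)) :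
    ∃ (g' : SL(2, ℤ)) (a b d : ℤ) (had : (a : ℝ) * (d : ℝ) ≠ 0), 0 < a ∧ 0 < d ∧ a * d = N ∧
      (d = 1 → (N : ℤ) ∣ g 1 0) ∧
      heckeDiagMatrix N * mapGL ℝ g = mapGL ℝ g' * upperTriangularGL a b d had := by
  have hNpos : (0 : ℤ) < N := by exact_mod_cast Nat.pos_of_ne_zero hN
  obtain ⟨u, v, A, B, a, b, d, huv, ha, hd, had, h1, h2, h3, h4⟩ :=
    int_factor N (g 0 0) (g 0 1) (g 1 0) (g 1 1) hNpos (det_eq_SL2 g)
  have had' : (a : ℝ) * (d : ℝ) ≠ 0 := by
    have : (a : ℝ) * d = N := by exact_mod_cast had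
    rw [this]; exact_mod_cast hN
  refine ⟨⟨!![u, -B; v, A], ?_⟩, a, b, d, had', ha, hd, had, ?_, ?_⟩
  · rw [Matrix.det_fin_two_of]; linear_combination huv
  · intro hd1
    rw [hd1, mul_one] at had
    exact ⟨v, by rw [← h2, had]; ring⟩
  · ext i j
    fin_cases i <;> fin_cases j <;>
      simp [hN, Matrix.mul_apply, Fin.sum_univ_two]
    · have := congrArg (Int.cast : ℤ → ℝ) h1; push_cast at this; linear_combination -this
    · have := congrArg (Int.cast : ℤ → ℝ) h3; push_cast at this; linear_combination -this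
    · have := congrArg (Int.cast : ℤ → ℝ) h2; push_cast at this; linear_combination -this
    · have := congrArg (Int.cast : ℤ → ℝ) h4; push_cast at this; linear_combination -this

lemma exists_comm {N : ℕ} (hN : N ≠ 0) (g : SL(2, ℤ)) (hg : (N : ℤ) ∣ g 1 0) :
    ∃ g' : SL(2, ℤ), heckeDiagMatrix N * mapGL ℝ g = mapGL ℝ g' * heckeDiagMatrix N := by
  obtain ⟨e, he⟩ := hg
  have hdet := det_eq_SL2 g
  refine ⟨⟨!![g 0 0, N * g 0 1; e, g 1 1], ?_⟩, ?_⟩
  · rw [Matrix.det_fin_two_of]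
    linear_combination hdet + (g 0 1) * he
  · ext i j
    fin_cases i <;> fin_cases j <;>
      simp [hN, Matrix.mul_apply, Fin.sum_univ_two]
    · ring
    · have := congrArg (Int.cast : ℤ → ℝ) he; push_cast at this; linear_combination this

open ModularForm (E₄)

/-- the function `N ^ 3 * E₄ (N z)`. -/
def thetaFun (N : ℕ) : ℍ → ℂ := ⇑E₄ ∣[(4 : ℤ)] heckeDiagMatrix N

lemma E₄_slash_mapGL (g : SL(2, ℤ)) : ⇑E₄ ∣[(4 : ℤ)] (mapGL ℝ g) = ⇑E₄ :=
  E₄.slash_action_eq' _ ⟨g, rfl⟩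

lemma thetaFun_slash_mapGL {N : ℕ} (hN : N ≠ 0) (g : SL(2, ℤ)) :
    ∃ (a b d : ℤ) (had : (a : ℝ) * (d : ℝ) ≠ 0), 0 < a ∧ 0 < d ∧ a * d = N ∧
      (d = 1 → (N : ℤ) ∣ g 1 0) ∧
      thetaFun N ∣[(4 : ℤ)] (mapGL ℝ g) = ⇑E₄ ∣[(4 : ℤ)] upperTriangularGL a b d had := by
  obtain ⟨g', a, b, d, had, ha, hd, h1, h2, h3⟩ := exists_factor hN g
  refine ⟨a, b, d, had, ha, hd, h1, h2, ?_⟩
  rw [thetaFun, ← SlashAction.slash_mul, h3, SlashAction.slash_mul, E₄_slash_mapGL]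

lemma thetaFun_slash_of_mem {N : ℕ} (hN : N ≠ 0) (γ : GL (Fin 2) ℝ)
    (hγ : γ ∈ (CongruenceSubgroup.Gamma0 N : Subgroup (GL (Fin 2) ℝ))) :
    thetaFun N ∣[(4 : ℤ)] γ = thetaFun N := by
  obtain ⟨g, hg, rfl⟩ := hγ
  have hg2 := CongruenceSubgroup.Gamma0_mem.mp hg
  obtain ⟨g', hg'⟩ := exists_comm hN g ((ZMod.intCast_zmod_eq_zero_iff_dvd _ _).mp hg2)
  rw [thetaFun, ← SlashAction.slash_mul, hg', SlashAction.slash_mul, E₄_slash_mapGL]

/-- `theta N = N ^ 3 * E₄ (N z)` as a modular form on `Γ₀(N)`. -/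
def theta (N : ℕ) [NeZero N] :
    ModularForm (CongruenceSubgroup.Gamma0 N : Subgroup (GL (Fin 2) ℝ)) 4 where
  toFun := thetaFun N
  slash_action_eq' := thetaFun_slash_of_mem (NeZero.ne N)
  holo' := E₄.holo'.slash 4 _
  bdd_at_cusps' hc := by
    rw [Subgroup.IsArithmetic.isCusp_iff_isCusp_SL2Z] at hc
    rw [OnePoint.isBoundedAt_iff_forall_SL2Z hc]
    intro γ _
    obtain ⟨a, b, d, had, -, -, -, -, h⟩ := thetaFun_slash_mapGL (NeZero.ne N) γ
    rw [ModularForm.SL_slash]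
    change IsBoundedAtImInfty (thetaFun N ∣[(4 : ℤ)] (mapGL ℝ γ))
    rw [h]
    exact IsBoundedAtImInfty.slash 4 (by simp) (ModularFormClass.bdd_at_infty E₄)

@[simp] lemma coe_theta (N : ℕ) [NeZero N] : ⇑(theta N) = thetaFun N := rfl

lemma tendsto_E₄ : Filter.Tendsto (⇑E₄) atImInfty (𝓝 1) := by
  have hh : (0 : ℝ) < 1 := one_pos
  have hΓ := one_mem_strictPeriods_SL
  have hanal := ModularFormClass.analyticAt_cuspFunction_zero E₄ hh hΓ
  have h0 : cuspFunction 1 (⇑E₄) 0 = 1 := by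
    have := EisensteinSeries.E_qExpansion_coeff_zero (k := 4) (by norm_num) ⟨2, rfl⟩
    rw [qExpansion_coeff] at this
    simpa using this
  rw [← h0]
  exact (hanal.continuousAt.tendsto.comp (qParam_tendsto_atImInfty hh)).congr
    (fun τ ↦ SlashInvariantFormClass.eq_cuspFunction E₄ τ hΓ hh.ne')

lemma slash_upperTriangularGL_apply (k : ℤ) {a b d : ℝ} (had : a * d ≠ 0) (ha : 0 < a)
    (hd : 0 < d) (f : ℍ → ℂ) (τ : ℍ) :
    (f ∣[k] upperTriangularGL a b d had) τ =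
      f (upperTriangularGL a b d had • τ) * ((a * d : ℝ) : ℂ) ^ (k - 1) * (d : ℂ) ^ (-k) := by
  have hdet : ((upperTriangularGL a b d had).det : ℝ) = a * d := by
    rw [Matrix.GeneralLinearGroup.val_det_apply, val_upperTriangularGL, Matrix.det_fin_two_of]
    ring
  have hpos : 0 < ((upperTriangularGL a b d had).det : ℝ) := by rw [hdet]; positivity
  have hσ : UpperHalfPlane.σ (upperTriangularGL a b d had) = .refl ℝ ℂ := by
    rw [UpperHalfPlane.σ, if_pos hpos]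
  have hden : UpperHalfPlane.denom (upperTriangularGL a b d had) τ = d := by
    simp [UpperHalfPlane.denom]
  rw [ModularForm.slash_apply, hσ, hdet, hden, abs_of_pos (by positivity)]
  simp

lemma tendsto_E₄_slash_upper {a b d : ℝ} (had : a * d ≠ 0) (ha : 0 < a) (hd : 0 < d) :
    Filter.Tendsto (⇑E₄ ∣[(4 : ℤ)] upperTriangularGL a b d had) atImInfty
      (𝓝 (((a * d : ℝ) : ℂ) ^ (3 : ℤ) * (d : ℂ) ^ (-4 : ℤ))) := by
  have h1 : Filter.Tendsto (fun τ : ℍ => E₄ (upperTriangularGL a b d had • τ)) atImInfty (𝓝 1) :=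
    tendsto_E₄.comp (tendsto_smul_atImInfty (by simp))
  have h2 := (h1.mul_const (((a * d : ℝ) : ℂ) ^ (3 : ℤ))).mul_const ((d : ℂ) ^ (-4 : ℤ))
  rw [one_mul] at h2
  refine h2.congr fun τ => ?_
  rw [slash_upperTriangularGL_apply 4 had ha hd]
  norm_num

lemma tendsto_thetaFun {N : ℕ} (hN : N ≠ 0) :
    Filter.Tendsto (thetaFun N) atImInfty (𝓝 ((N : ℂ) ^ (3 : ℤ))) := by
  have hN' : (0 : ℝ) < N := by exact_mod_cast Nat.pos_of_ne_zero hN
  have h := tendsto_E₄_slash_upper (a := N) (b := 0) (d := 1)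
    (by rw [mul_one]; exact hN'.ne') hN' one_pos
  have he : heckeDiagMatrix N = upperTriangularGL N 0 1 (by rw [mul_one]; exact hN'.ne') := by
    simp [heckeDiagMatrix, hN]
  rw [thetaFun, he]
  simpa using h

lemma mem_Gamma0_of_thetaFun_slash_eq {N : ℕ} (hN : N ≠ 0) (g : SL(2, ℤ))
    (h : thetaFun N ∣[(4 : ℤ)] (mapGL ℝ g) = thetaFun N) : g ∈ CongruenceSubgroup.Gamma0 N := by
  obtain ⟨a, b, d, had, ha, hd, h1, h2, h3⟩ := thetaFun_slash_mapGL hN g
  have ha' : (0 : ℝ) < a := by exact_mod_cast ha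
  have hd' : (0 : ℝ) < d := by exact_mod_cast hd
  have t1 := tendsto_E₄_slash_upper (b := b) had ha' hd'
  rw [← h3, h] at t1
  have huniq := tendsto_nhds_unique t1 (tendsto_thetaFun hN)
  have hadN : ((a : ℝ) * (d : ℝ) : ℝ) = (N : ℝ) := by exact_mod_cast h1
  rw [hadN] at huniq
  have hNC : ((N : ℝ) : ℂ) ^ (3 : ℤ) ≠ 0 := by
    apply zpow_ne_zero
    exact_mod_cast hN
  have hd4 : ((d : ℝ) : ℂ) ^ (-4 : ℤ) = 1 := by
    have h5 : ((N : ℝ) : ℂ) ^ (3 : ℤ) * ((d : ℝ) : ℂ) ^ (-4 : ℤ) = ((N : ℝ) : ℂ) ^ (3 : ℤ) * 1 := by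
      rw [mul_one, huniq]; simp
    exact mul_left_cancel₀ hNC h5
  have hd4' : (d : ℝ) ^ 4 = 1 := by
    have h6 : ((d : ℝ) : ℂ) ^ 4 = 1 := by
      have hdne : ((d : ℝ) : ℂ) ≠ 0 := by exact_mod_cast hd'.ne'
      rw [zpow_neg, inv_eq_one] at hd4
      exact_mod_cast hd4
    exact_mod_cast h6
  have hd1 : d = 1 := by
    have h7 : (d : ℝ) = 1 := by
      have := pow_eq_one_iff_of_nonneg hd'.le (n := 4) (by norm_num) |>.mp hd4'
      exact this
    exact_mod_cast h7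
  rw [CongruenceSubgroup.Gamma0_mem]
  exact (ZMod.intCast_zmod_eq_zero_iff_dvd _ _).mpr (h2 hd1)

lemma E₄_coeff_int (m : ℕ) : ∃ c : ℤ, (qExpansion 1 E₄).coeff m = (c : ℂ) := by
  rw [EisensteinSeries.E_qExpansion_coeff (k := 4) (by norm_num) ⟨2, rfl⟩ m]
  split_ifs
  · exact ⟨1, by simp⟩
  · refine ⟨240 * (ArithmeticFunction.sigma 3 m : ℤ), ?_⟩
    norm_num [show bernoulli 4 = -1 / 30 by decide +kernel]

lemma thetaFun_coeff {N : ℕ} (hN : N ≠ 0) (n : ℕ) :
    (qExpansion 1 (thetaFun N)).coeff n =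
      if N ∣ n then (N : ℂ) ^ (3 : ℤ) * (qExpansion 1 E₄).coeff (n / N) else 0 := by
  have hΓ := one_mem_strictPeriods_SL
  have hper := SlashInvariantFormClass.periodic_comp_ofComplex E₄ hΓ
  have hhol : MDiff (⇑E₄) := E₄.holo'
  have hbdd : IsBoundedAtImInfty (⇑E₄) := ModularFormClass.bdd_at_infty E₄
  have hT : AnalyticAt ℂ (cuspFunction 1 (ModularForm.heckeT 4 N ⇑E₄)) 0 :=
    analyticAt_cuspFunction_zero one_pos
      (by simpa using ModularForm.periodic_heckeT_comp_ofComplex (by simpa using hper) 4 N)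
      (ModularForm.mdifferentiable_heckeT hhol 4 N) (ModularForm.isBoundedAtImInfty_heckeT hbdd 4 N)
  have hU : AnalyticAt ℂ (cuspFunction 1 (ModularForm.heckeU 4 N ⇑E₄)) 0 :=
    analyticAt_cuspFunction_zero one_pos
      (by simpa using ModularForm.periodic_heckeU_comp_ofComplex (by simpa using hper) 4 N)
      (ModularForm.mdifferentiable_heckeU hhol 4 N) (ModularForm.isBoundedAtImInfty_heckeU hbdd 4 N)
  have he : thetaFun N = ModularForm.heckeT 4 N ⇑E₄ - ModularForm.heckeU 4 N ⇑E₄ := by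
    rw [ModularForm.heckeT_eq_heckeU_add, add_sub_cancel_left, thetaFun]
  have h1 := ModularFormClass.qCoeff_heckeT E₄ hΓ hN n
  have h2 := ModularFormClass.qCoeff_heckeU (k := 4) E₄ hΓ hN n
  rw [he, qExpansion_sub hT hU, map_sub]
  simp only [ModularFormClass.qCoeff] at h1 h2
  rw [h1, h2, ModularForm.coeffHeckeT_eq_coeffHeckeU_add, add_sub_cancel_left]
  norm_num [ModularFormClass.qCoeff]

lemma theta_mem_intSet (N : ℕ) [NeZero N] :
    theta N ∈ intSet (CongruenceSubgroup.Gamma0 N : Subgroup (GL (Fin 2) ℝ)) 4 := by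
  intro m
  rw [coe_theta, thetaFun_coeff (NeZero.ne N)]
  split_ifs
  · obtain ⟨c, hc⟩ := E₄_coeff_int (m / N)
    exact ⟨(N : ℤ) ^ 3 * c, by rw [hc]; push_cast; norm_cast⟩
  · exact ⟨0, by simp⟩

end Fermat.Agent.IntStruct
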