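import Mathlib
import Fermat.Prelude.Thm_CongruenceSubgroup_one_mem_strictPeriods_Gamma0
import Fermat.Agent.IntStruct.IntSpan
import Fermat.Agent.IntStruct.Theta
import Fermat.Agent.IntStruct.LevelOne

set_option autoImplicit false

open UpperHalfPlane Matrix.SpecialLinearGroup SlashInvariantForm
open scoped MatrixGroups Manifold ModularForm Topology

noncomputable section

namespace Fermat.Agent.IntStruct

section restrict

variable (Γ : Subgroup SL(2, ℤ))

lemma coe_le_SL : (Γ : Subgroup (GL (Fin 2) ℝ)) ≤ 𝒮ℒ := Subgroup.map_le_range _ _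

/-- a level one form, seen as a form on a subgroup. -/
def restr {n : ℤ} (F : ModularForm 𝒮ℒ n) : ModularForm (Γ : Subgroup (GL (Fin 2) ℝ)) n where
  toFun := F
  slash_action_eq' γ hγ := F.slash_action_eq' γ (coe_le_SL Γ hγ)
  holo' := F.holo'
  bdd_at_cusps' hc := F.bdd_at_cusps' (hc.mono (coe_le_SL Γ))

@[simp] lemma coe_restr {n : ℤ} (F : ModularForm 𝒮ℒ n) : ⇑(restr Γ F) = ⇑F := rfl

lemma IS_of_levelOne {n : ℤ} (F : ModularForm 𝒮ℒ n) :
    IS (Γ : Subgroup (GL (Fin 2) ℝ)) n ⇑F := by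
  induction levelOne_mem_span_int n F using Submodule.span_induction with
  | mem g hg => exact ⟨restr Γ g, Submodule.subset_span hg, rfl⟩
  | zero => exact IS.zero
  | add x y _ _ hx hy => exact hx.add hy
  | smul c x _ hx => exact hx.smul c

end restrict

section cj

variable {𝒢 : Subgroup (GL (Fin 2) ℝ)}

local notation "𝒬" => 𝒮ℒ ⧸ (𝒢.subgroupOf 𝒮ℒ)

/-- conjugates of a function, through chosen coset representatives. -/
def cj (n : ℤ) (F : ℍ → ℂ) (q : 𝒬) : ℍ → ℂ := F ∣[n] (q.out.val)⁻¹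

lemma abs_det_out_inv (q : 𝒬) : |((q.out.val)⁻¹.det : ℝ)| = 1 :=
  Subgroup.HasDetPlusMinusOne.abs_det (Γ := 𝒮ℒ) (inv_mem q.out.2)

lemma cj_mul (n m : ℤ) (F G : ℍ → ℂ) (q : 𝒬) :
    cj (n + m) (F * G) q = cj n F q * cj m G q := by
  rw [cj, ModularForm.mul_slash, abs_det_out_inv, one_smul]
  rfl

lemma cj_one (q : 𝒬) : cj 0 1 q = 1 := by
  obtain ⟨g, hg⟩ := inv_mem q.out.2
  rw [cj, ← hg]
  exact ModularForm.is_invariant_one' g

lemma cj_pow (n : ℤ) (F : ℍ → ℂ) (j : ℕ) (q : 𝒬) :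
    cj (j * n) (F ^ j) q = (cj n F q) ^ j := by
  induction j with
  | zero => simpa using cj_one q
  | succ j ih =>
    rw [pow_succ, pow_succ, ← ih, ← cj_mul]
    congr 1
    push_cast
    ring

lemma quotientFunc_eq_cj {n : ℤ} (f : ModularForm 𝒢 n) (q : 𝒬) :
    quotientFunc f q = cj n f q := by
  conv_lhs => rw [← Quotient.out_eq q]
  rfl

lemma coe_trace_eq [𝒢.IsArithmetic] {n : ℤ} (f : ModularForm 𝒢 n) [Fintype 𝒬] :
    ⇑(ModularForm.trace 𝒮ℒ f) = ∑ q : 𝒬, cj n f q := by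
  rw [ModularForm.coe_trace]
  simp only [quotientFunc_eq_cj]
  convert rfl

lemma cj_mk_one {n : ℤ} (f : ModularForm 𝒢 n) : cj n f (⟦1⟧ : 𝒬) = f := by
  rw [← quotientFunc_eq_cj]
  simp

end cj

section theta

variable (N : ℕ) [NeZero N]

local notation "𝒬" =>
  𝒮ℒ ⧸ (Subgroup.subgroupOf (CongruenceSubgroup.Gamma0 N : Subgroup (GL (Fin 2) ℝ)) 𝒮ℒ)

lemma cj_theta_injective : Function.Injective (fun q : 𝒬 => cj 4 (theta N) q) := by
  intro q q' h
  simp only [cj, coe_theta] at h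
  have h2 : thetaFun N ∣[(4 : ℤ)] ((q.out.val)⁻¹ * q'.out.val) = thetaFun N := by
    rw [SlashAction.slash_mul, h, ← SlashAction.slash_mul, inv_mul_cancel, SlashAction.slash_one]
  obtain ⟨g, hg⟩ : (q.out.val)⁻¹ * q'.out.val ∈ 𝒮ℒ := mul_mem (inv_mem q.out.2) q'.out.2
  rw [← hg] at h2
  have hmem := mem_Gamma0_of_thetaFun_slash_eq (NeZero.ne N) g h2
  rw [← Quotient.out_eq q, ← Quotient.out_eq q']
  apply Quotient.sound
  refine QuotientGroup.leftRel_apply.mpr ?_
  rw [Subgroup.mem_subgroupOf]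
  exact ⟨g, hmem, hg⟩

lemma cj_mdiff {n : ℤ} {F : ℍ → ℂ} (hF : MDiff F) (q : 𝒬) : MDiff (cj n F q) :=
  hF.slash n _

open Matrix in
omit [NeZero N] in
lemma mulVec_cramer_transpose_mul {R : Type*} [CommRing R] {ι : Type*} [Fintype ι] [DecidableEq ι]
    (V : Matrix ι ι R) (φ : ι → R) :
    V *ᵥ ((Vᵀ * V).cramer (Vᵀ *ᵥ φ)) = (V.det * V.det) • φ := by
  rw [Matrix.cramer_eq_adjugate_mulVec, Matrix.adjugate_mul_distrib, Matrix.mulVec_mulVec,
    Matrix.mulVec_mulVec, ← Matrix.mul_assoc, Matrix.mul_adjugate,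
    Matrix.mul_assoc, Matrix.adjugate_mul, Matrix.det_transpose]
  simp [Matrix.smul_mulVec, smul_smul]

open Matrix in
theorem exists_denominator_fun {k : ℤ} (f : ModularForm (CongruenceSubgroup.Gamma0 N) k) :
    ∃ (w : ℤ) (H G : ℍ → ℂ), H ≠ 0 ∧
      IS (CongruenceSubgroup.Gamma0 N : Subgroup (GL (Fin 2) ℝ)) w H ∧
      IS (CongruenceSubgroup.Gamma0 N : Subgroup (GL (Fin 2) ℝ)) (k + w) G ∧ H * ⇑f = G := by
  classical
  have hΓ := CongruenceSubgroup.one_mem_strictPeriods_Gamma0 N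
  have : Fintype 𝒬 := Fintype.ofFinite _
  set d := Fintype.card 𝒬 with hd
  let e : 𝒬 ≃ Fin d := Fintype.equivFin 𝒬
  let v : Fin d → ℍ → ℂ := fun i => cj 4 (theta N) (e.symm i)
  let φ : Fin d → ℍ → ℂ := fun i => cj k f (e.symm i)
  let V : Matrix (Fin d) (Fin d) (ℍ → ℂ) := Matrix.vandermonde v
  let M := Vᵀ * V
  let t := Vᵀ *ᵥ φ
  have hθ : IS (CongruenceSubgroup.Gamma0 N : Subgroup (GL (Fin 2) ℝ)) 4 (theta N) :=
    ⟨theta N, Submodule.subset_span (theta_mem_intSet N), rfl⟩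
  -- entries of `M`
  have hM : ∀ i j : Fin d, IS (CongruenceSubgroup.Gamma0 N : Subgroup (GL (Fin 2) ℝ))
      ((i : ℤ) * 4 + (j : ℤ) * 4) (M i j) := by
    intro i j
    have h1 : M i j = ⇑(ModularForm.trace 𝒮ℒ ((theta N).pow ((i : ℕ) + (j : ℕ)))) := by
      rw [coe_trace_eq, ← Equiv.sum_comp e.symm]
      simp only [M, V, Matrix.mul_apply, Matrix.transpose_apply, Matrix.vandermonde_apply,
        ModularForm.coe_pow, cj_pow, v]
      exact Finset.sum_congr rfl fun x _ => (pow_add _ _ _).symm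
    rw [h1]
    exact (IS_of_levelOne _ _).cast (by push_cast; ring)
  have ht : ∀ i : Fin d, IS (CongruenceSubgroup.Gamma0 N : Subgroup (GL (Fin 2) ℝ))
      ((i : ℤ) * 4 + k) (t i) := by
    intro i
    have h1 : t i = ⇑(ModularForm.trace 𝒮ℒ (((theta N).pow (i : ℕ)).mul f)) := by
      rw [coe_trace_eq, ← Equiv.sum_comp e.symm]
      simp only [t, V, Matrix.mulVec, dotProduct, Matrix.transpose_apply, Matrix.vandermonde_apply,
        ModularForm.coe_mul, ModularForm.coe_pow, cj_mul, cj_pow, v, φ]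
    rw [h1]
    exact IS_of_levelOne _ _
  set W : ℤ := ∑ i : Fin d, (i : ℤ) * 4 + ∑ j : Fin d, (j : ℤ) * 4 with hW
  have hH : IS (CongruenceSubgroup.Gamma0 N : Subgroup (GL (Fin 2) ℝ)) W M.det :=
    IS.det hΓ (a := fun i : Fin d => (i : ℤ) * 4) (b := fun j : Fin d => (j : ℤ) * 4) hM
  have hy : ∀ i : Fin d, IS (CongruenceSubgroup.Gamma0 N : Subgroup (GL (Fin 2) ℝ))
      (∑ r : Fin d, (r : ℤ) * 4 + ∑ c : Fin d, (if c = i then k else (c : ℤ) * 4))
      (M.cramer t i) := by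
    intro i
    rw [Matrix.cramer_apply]
    refine IS.det hΓ (a := fun r : Fin d => (r : ℤ) * 4)
      (b := fun c : Fin d => if c = i then k else (c : ℤ) * 4) fun r c => ?_
    rw [Matrix.updateCol_apply]
    split_ifs
    · exact ht r
    · exact hM r c
  have hsum : ∀ i : Fin d, (i : ℤ) * 4 + ∑ c : Fin d, (if c = i then k else (c : ℤ) * 4) =
      k + ∑ c : Fin d, (c : ℤ) * 4 := by
    intro i
    have h1 : ∀ c : Fin d, (if c = i then k else (c : ℤ) * 4) =
        (c : ℤ) * 4 + (if c = i then k - (i : ℤ) * 4 else 0) := by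
      intro c
      split_ifs with h
      · rw [h]; ring
      · ring
    simp only [h1, Finset.sum_add_distrib, Finset.sum_ite_eq', Finset.mem_univ, if_true]
    ring
  have hG : IS (CongruenceSubgroup.Gamma0 N : Subgroup (GL (Fin 2) ℝ)) (k + W)
      (∑ i : Fin d, (⇑(theta N)) ^ (i : ℕ) * M.cramer t i) := by
    refine IS.sum fun i _ => ?_
    refine ((hθ.pow hΓ (i : ℕ)).mul hΓ (hy i)).cast ?_
    have := hsum i
    rw [hW]
    linarith
  have hdet : M.det = V.det * V.det := by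
    simp only [M, Matrix.det_mul, Matrix.det_transpose]
  refine ⟨W, M.det, _, ?_, hH, hG, ?_⟩
  · -- nonvanishing
    have hvd : ∀ i : Fin d, MDiff (v i) := fun i => cj_mdiff N (theta N).holo' _
    have hsub : ∀ i j : Fin d, MDiff (v j - v i) := fun i j => (hvd j).sub (hvd i)
    have hinner : ∀ i : Fin d, MDiff (∏ j ∈ Finset.Ioi i, (v j - v i)) :=
      fun i => .prod fun j _ => hsub i j
    have hVne : V.det ≠ 0 := by
      simp only [V, Matrix.det_vandermonde]
      intro h0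
      obtain ⟨i, -, hi⟩ := (UpperHalfPlane.prod_eq_zero_iff fun i _ => hinner i).mp h0
      obtain ⟨j, hj, hij⟩ := (UpperHalfPlane.prod_eq_zero_iff fun j _ => hsub i j).mp hi
      have h1 : v j = v i := sub_eq_zero.mp hij
      have h2 : e.symm j = e.symm i := cj_theta_injective N h1
      have h3 : j = i := e.symm.injective h2
      rw [h3] at hj
      simp at hj
    have hVd : MDiff V.det := by
      simp only [V, Matrix.det_vandermonde]
      exact .prod fun i _ => hinner i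
    rw [hdet]
    intro h0
    rcases (UpperHalfPlane.mul_eq_zero_iff hVd hVd).mp h0 with h | h <;> exact hVne h
  · -- the identity
    have hid := congrFun (mulVec_cramer_transpose_mul V φ) (e ⟦1⟧)
    have hφ : φ (e ⟦1⟧) = ⇑f := by
      simp only [φ, Equiv.symm_apply_apply]
      exact cj_mk_one f
    have hv : v (e ⟦1⟧) = ⇑(theta N) := by
      simp only [v, Equiv.symm_apply_apply]
      exact cj_mk_one (theta N)
    rw [Pi.smul_apply, hφ, smul_eq_mul, ← hdet] at hid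
    rw [← hid]
    simp only [Matrix.mulVec, dotProduct, V, Matrix.vandermonde_apply, hv]
    rfl

/-- Every cusp form on `Γ₀(N)` is a quotient of two forms in the span of integral forms. -/
theorem exists_denominator {k : ℤ} (f : CuspForm (CongruenceSubgroup.Gamma0 N) k) :
    ∃ (w : ℤ) (H : ModularForm (CongruenceSubgroup.Gamma0 N) w)
      (G : ModularForm (CongruenceSubgroup.Gamma0 N) (k + w)),
      H ≠ 0 ∧ H ∈ intSpan _ w ∧ G ∈ intSpan _ (k + w) ∧ ∀ z, H z * f z = G z := by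
  obtain ⟨w, H, G, hH0, ⟨H', hH', rfl⟩, ⟨G', hG', rfl⟩, h⟩ :=
    exists_denominator_fun N (ModularFormClass.modularForm f)
  refine ⟨w, H', G', ?_, hH', hG', fun z => congrFun h z⟩
  rintro rfl
  exact hH0 rfl

end theta

end Fermat.Agent.IntStruct
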