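import Fermat.Agent.IntStruct.FixedField

set_option autoImplicit false

namespace Fermat.Agent.IntStruct.Descent

open Classical in
/-- Galois descent for a space of "coefficient vectors": if a complex vector space `V` embeds
linearly in `ι → ℂ`, is detected by finitely many coordinates and is stable under applying any
ring endomorphism of `ℂ` to all coordinates, then it is spanned by its vectors with rational
coordinates. -/
theorem span_rational_eq_top {V ι : Type*} [AddCommGroup V] [Module ℂ V]
    (c : V →ₗ[ℂ] (ι → ℂ)) (J : Finset ι) (hJ : ∀ v, (∀ j ∈ J, c v j = 0) → v = 0)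
    (hσ : ∀ (σ : ℂ →+* ℂ) (v : V), ∃ v', ∀ i, c v' i = σ (c v i)) :
    Submodule.span ℂ {v : V | ∀ i, ∃ r : ℚ, c v i = (r : ℂ)} = ⊤ := by
  set W := Submodule.span ℂ {v : V | ∀ i, ∃ r : ℚ, c v i = (r : ℂ)} with hW
  let supp : V → Finset ι := fun v => J.filter (fun j => c v j ≠ 0)
  have hsupp0 : ∀ v, supp v = ∅ → v = 0 := by
    intro v hv
    apply hJ
    intro j hj
    by_contra hne
    have : j ∈ supp v := Finset.mem_filter.mpr ⟨hj, hne⟩
    rw [hv] at this
    exact absurd this (Finset.notMem_empty j)
  -- main claim by strong induction on the size of the support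
  have key : ∀ n : ℕ, ∀ v : V, (supp v).card ≤ n → v ∈ W := by
    intro n
    induction n with
    | zero =>
      intro v hv
      have : v = 0 := hsupp0 v (Finset.card_eq_zero.mp (Nat.le_zero.mp hv))
      rw [this]; exact W.zero_mem
    | succ n ih =>
      intro v hv
      by_cases hv0 : v = 0
      · rw [hv0]; exact W.zero_mem
      -- choose `u` nonzero with support inside that of `v`, of minimal size
      let P : ℕ → Prop := fun m => ∃ u : V, u ≠ 0 ∧ supp u ⊆ supp v ∧ (supp u).card = m
      have hP : ∃ m, P m := ⟨_, v, hv0, Finset.Subset.refl _, rfl⟩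
      obtain ⟨u, hu0, husub, hucard⟩ := Nat.find_spec hP
      have humin : ∀ u' : V, u' ≠ 0 → supp u' ⊆ supp v → (supp u).card ≤ (supp u').card := by
        intro u' h1 h2
        rw [hucard]
        exact Nat.find_min' hP ⟨u', h1, h2, rfl⟩
      have hne : (supp u).Nonempty := by
        rw [Finset.nonempty_iff_ne_empty]
        exact fun h => hu0 (hsupp0 u h)
      obtain ⟨i, hi⟩ := hne
      have hiJ : i ∈ J := (Finset.mem_filter.mp hi).1
      have hci : c u i ≠ 0 := (Finset.mem_filter.mp hi).2
      -- normalise
      set w : V := (c u i)⁻¹ • u with hw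
      have hcw : ∀ j, c w j = (c u i)⁻¹ * c u j := by
        intro j
        simp [hw]
      have hwi : c w i = 1 := by rw [hcw, inv_mul_cancel₀ hci]
      have hsw : supp w = supp u := by
        ext j
        simp only [supp, Finset.mem_filter, hcw, ne_eq, mul_eq_zero, inv_eq_zero, hci, false_or]
      -- `w` is fixed by all `σ`
      have hfix : ∀ (σ : ℂ →+* ℂ) (j : ι), σ (c w j) = c w j := by
        intro σ j
        obtain ⟨w', hw'⟩ := hσ σ w
        have hd : w' - w = 0 := by
          by_contra hd
          have hsub : supp (w' - w) ⊆ (supp w).erase i := by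
            intro j hj
            have hjJ := (Finset.mem_filter.mp hj).1
            have hjne := (Finset.mem_filter.mp hj).2
            rw [map_sub, Pi.sub_apply, hw'] at hjne
            refine Finset.mem_erase.mpr ⟨?_, Finset.mem_filter.mpr ⟨hjJ, ?_⟩⟩
            · rintro rfl
              rw [hwi, map_one, sub_self] at hjne
              exact hjne rfl
            · intro h0
              rw [h0, map_zero, sub_self] at hjne
              exact hjne rfl
          have h1 : (supp u).card ≤ (supp (w' - w)).card :=
            humin _ hd (hsub.trans ((Finset.erase_subset _ _).trans (hsw ▸ husub)))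
          have h2 : (supp (w' - w)).card ≤ ((supp w).erase i).card := Finset.card_le_card hsub
          have h3 : ((supp w).erase i).card < (supp w).card :=
            Finset.card_erase_lt_of_mem (hsw ▸ hi)
          rw [hsw] at h2 h3
          omega
        have : w' = w := sub_eq_zero.mp hd
        rw [← hw', this]
      have hwW : w ∈ W := by
        apply Submodule.subset_span
        intro j
        obtain ⟨r, hr⟩ := FixedField.exists_rat_of_forall_ringHom_eq (c w j) (fun σ => hfix σ j)
        exact ⟨r, hr.symm⟩
      -- subtract
      have hiv : i ∈ supp v := husub hi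
      have hsub2 : supp (v - c v i • w) ⊆ (supp v).erase i := by
        intro j hj
        have hjJ := (Finset.mem_filter.mp hj).1
        have hjne := (Finset.mem_filter.mp hj).2
        rw [map_sub, map_smul, Pi.sub_apply, Pi.smul_apply, smul_eq_mul] at hjne
        refine Finset.mem_erase.mpr ⟨?_, ?_⟩
        · rintro rfl
          rw [hwi, mul_one, sub_self] at hjne
          exact hjne rfl
        · by_contra hjv
          have h0 : c v j = 0 := by
            by_contra h
            exact hjv (Finset.mem_filter.mpr ⟨hjJ, h⟩)
          have h1 : c w j = 0 := by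
            by_contra h
            have : j ∈ supp w := Finset.mem_filter.mpr ⟨hjJ, h⟩
            rw [hsw] at this
            exact hjv (husub this)
          rw [h0, h1, mul_zero, sub_self] at hjne
          exact hjne rfl
      have hcard : (supp (v - c v i • w)).card ≤ n := by
        have h2 := Finset.card_le_card hsub2
        have h3 := Finset.card_erase_lt_of_mem hiv
        omega
      have := ih _ hcard
      have h4 : v = (v - c v i • w) + c v i • w := by abel
      rw [h4]
      exact W.add_mem this (W.smul_mem _ hwW)
  rw [eq_top_iff]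
  intro v _
  exact key _ v le_rfl

end Fermat.Agent.IntStruct.Descent

namespace Fermat.Agent.IntStruct

namespace Descent

/-- The coefficient map on a subspace of power series. -/
noncomputable def coeffMap (V : Submodule ℂ (PowerSeries ℂ)) : V →ₗ[ℂ] (ℕ → ℂ) where
  toFun f n := PowerSeries.coeff n (f : PowerSeries ℂ)
  map_add' f g := by ext n; simp
  map_smul' a f := by ext n; simp

/-- A finite-dimensional space of power series is detected by finitely many coefficients. -/
theorem exists_bound (V : Submodule ℂ (PowerSeries ℂ)) [FiniteDimensional ℂ V] :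
    ∃ B : ℕ, ∀ f : V, (∀ j ∈ Finset.range B, coeffMap V f j = 0) → f = 0 := by
  let W : ℕ → Submodule ℂ V := fun n =>
    { carrier := {f | ∀ j < n, coeffMap V f j = 0}
      add_mem' := by
        intro a b ha hb j hj
        rw [map_add, Pi.add_apply, ha j hj, hb j hj, add_zero]
      zero_mem' := by
        intro j _
        rw [map_zero, Pi.zero_apply]
      smul_mem' := by
        intro c a ha j hj
        rw [map_smul, Pi.smul_apply, ha j hj, smul_zero] }
  have hanti : Antitone W := by
    intro m n hmn f hf j hj
    exact hf j (lt_of_lt_of_le hj hmn)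
  obtain ⟨B, hB⟩ := IsArtinian.monotone_stabilizes (R := ℂ) (M := V)
    ⟨fun n => OrderDual.toDual (W n), fun m n hmn => hanti hmn⟩
  refine ⟨B, fun f hf => ?_⟩
  have hfB : f ∈ W B := fun j hj => hf j (Finset.mem_range.mpr hj)
  apply Subtype.ext
  ext n
  have h1 : W B = W (max B (n + 1)) := congrArg OrderDual.ofDual (hB _ (le_max_left _ _))
  rw [h1] at hfB
  have := hfB n (lt_of_lt_of_le (Nat.lt_succ_self n) (le_max_right _ _))
  simpa [coeffMap] using this

end Descent

/-- L5b: a finite-dimensional space of complex power series which is stable under all ring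
endomorphisms of `ℂ` (acting on coefficients) is spanned by its elements with rational
coefficients. -/
theorem le_span_rat_of_stable (V : Submodule ℂ (PowerSeries ℂ)) [FiniteDimensional ℂ V]
    (hV : ∀ σ : ℂ →+* ℂ, ∀ f ∈ V, PowerSeries.map σ f ∈ V) :
    V ≤ Submodule.span ℂ {f | f ∈ V ∧ ∀ n, ∃ r : ℚ, PowerSeries.coeff n f = (r : ℂ)} := by
  obtain ⟨B, hB⟩ := Descent.exists_bound V
  have key := Descent.span_rational_eq_top (Descent.coeffMap V) (Finset.range B) hB
    (fun σ v => ⟨⟨PowerSeries.map σ v, hV σ v v.2⟩, fun i => by simp [Descent.coeffMap]⟩)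
  intro f hf
  have h1 : (⟨f, hf⟩ : V) ∈ Submodule.span ℂ
      {v : V | ∀ i, ∃ r : ℚ, Descent.coeffMap V v i = (r : ℂ)} := by
    rw [key]; exact Submodule.mem_top
  have h2 := Submodule.mem_map_of_mem (f := V.subtype) h1
  rw [Submodule.map_span] at h2
  refine Submodule.span_mono ?_ h2
  rintro _ ⟨v, hv, rfl⟩
  exact ⟨v.2, hv⟩

end Fermat.Agent.IntStruct
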