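import Mathlib

set_option autoImplicit false

open UpperHalfPlane ModularForm Filter Topology Complex
open scoped MatrixGroups Manifold

namespace Fermat.Agent.IntStruct

namespace Division

lemma pow_norm_le_of_monic_relation {d : ℕ} {x : ℂ} {c : Fin d → ℂ}
    (hx : x ^ d + ∑ i : Fin d, c i * x ^ (i : ℕ) = 0) :
    ‖x‖ ^ d ≤ ∑ i : Fin d, ‖c i‖ * ‖x‖ ^ (i : ℕ) := by
  have h : x ^ d = - ∑ i : Fin d, c i * x ^ (i : ℕ) := eq_neg_of_add_eq_zero_left hx
  calc ‖x‖ ^ d = ‖x ^ d‖ := (norm_pow _ _).symm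
    _ = ‖∑ i : Fin d, c i * x ^ (i : ℕ)‖ := by rw [h, norm_neg]
    _ ≤ ∑ i : Fin d, ‖c i * x ^ (i : ℕ)‖ := norm_sum_le _ _
    _ = _ := by simp [norm_pow]

lemma norm_le_sum_of_monic_relation {d : ℕ} {x : ℂ} {c : Fin d → ℂ}
    (hx : x ^ d + ∑ i : Fin d, c i * x ^ (i : ℕ) = 0) (h1 : 1 < ‖x‖) :
    ‖x‖ ≤ ∑ i : Fin d, ‖c i‖ := by
  have hd : d ≠ 0 := by
    rintro rfl
    simp at hx
  have h := pow_norm_le_of_monic_relation hx
  have h2 : ∑ i : Fin d, ‖c i‖ * ‖x‖ ^ (i : ℕ) ≤ (∑ i : Fin d, ‖c i‖) * ‖x‖ ^ (d - 1) := by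
    rw [Finset.sum_mul]
    refine Finset.sum_le_sum fun i _ => ?_
    exact mul_le_mul_of_nonneg_left (pow_le_pow_right₀ h1.le (by have := i.2; omega))
      (norm_nonneg _)
  have h3 : ‖x‖ ^ d = ‖x‖ * ‖x‖ ^ (d - 1) := by
    rw [← pow_succ', Nat.sub_add_cancel (Nat.pos_of_ne_zero hd)]
  have hpos : 0 < ‖x‖ ^ (d - 1) := pow_pos (by linarith) _
  exact le_of_mul_le_mul_right (h3 ▸ h.trans h2) hpos

lemma norm_le_max_of_monic_relation {d : ℕ} {x : ℂ} {c : Fin d → ℂ}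
    (hx : x ^ d + ∑ i : Fin d, c i * x ^ (i : ℕ) = 0) :
    ‖x‖ ≤ max 1 (∑ i : Fin d, ‖c i‖) := by
  by_cases h1 : ‖x‖ ≤ 1
  · exact le_max_of_le_left h1
  · exact le_max_of_le_right (norm_le_sum_of_monic_relation hx (not_le.mp h1))

lemma norm_lt_of_monic_relation {d : ℕ} {x : ℂ} {c : Fin d → ℂ} {ε : ℝ} (hε : 0 < ε) (hε1 : ε ≤ 1)
    (hx : x ^ d + ∑ i : Fin d, c i * x ^ (i : ℕ) = 0)
    (hc : ∑ i : Fin d, ‖c i‖ < ε ^ d) : ‖x‖ < ε := by
  by_contra hcon
  rw [not_lt] at hcon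
  have hε' : ε ^ d ≤ 1 := pow_le_one₀ hε.le hε1
  by_cases h1 : ‖x‖ ≤ 1
  · have h := pow_norm_le_of_monic_relation hx
    have h2 : ∑ i : Fin d, ‖c i‖ * ‖x‖ ^ (i : ℕ) ≤ ∑ i : Fin d, ‖c i‖ := by
      refine Finset.sum_le_sum fun i _ => ?_
      exact mul_le_of_le_one_right (norm_nonneg _) (pow_le_one₀ (norm_nonneg _) h1)
    have h3 : ε ^ d ≤ ‖x‖ ^ d := pow_le_pow_left₀ hε.le hcon d
    linarith
  · have := norm_le_sum_of_monic_relation hx (not_le.mp h1)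
    linarith

lemma exists_mdiff_mul_eq {g h : ℍ → ℂ} (hg : MDiff g) (hh : MDiff h) (hh0 : h ≠ 0)
    (B : ℍ → ℝ) (hB : Continuous B) (hbd : ∀ τ, h τ ≠ 0 → ‖g τ / h τ‖ ≤ B τ) :
    ∃ F : ℍ → ℂ, MDiff F ∧ ∀ τ, h τ * F τ = g τ := by
  set U : Set ℂ := {z | 0 < z.im} with hU
  have hUo : IsOpen U := isOpen_upperHalfPlaneSet
  set g' : ℂ → ℂ := g ∘ ofComplex with hg'
  set h' : ℂ → ℂ := h ∘ ofComplex with hh'
  have hgd : DifferentiableOn ℂ g' U := UpperHalfPlane.mdifferentiable_iff.mp hg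
  have hhd : DifferentiableOn ℂ h' U := UpperHalfPlane.mdifferentiable_iff.mp hh
  set φ : ℂ → ℂ := fun z => g' z / h' z with hφ
  set F : ℂ → ℂ := fun z => limUnder (𝓝[≠] z) φ with hF
  -- zeros of h' are isolated
  have hA : ∀ z0 ∈ U, ∀ᶠ z in 𝓝[≠] z0, h' z ≠ 0 := by
    intro z0 hz0
    by_contra hcon
    rw [not_eventually] at hcon
    have hcon' : ∃ᶠ z in 𝓝[≠] z0, h' z = 0 := hcon.mono fun z hz => not_not.mp hz
    have := (hhd.analyticOnNhd hUo).eqOn_zero_of_preconnected_of_frequently_eq_zero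
      (Complex.isConnected_of_upperHalfPlane subset_rfl (by grind)).isPreconnected hz0 hcon'
    apply hh0
    ext τ
    have h1 := this τ.im_pos
    simpa [hh'] using h1
  have hφd : ∀ z ∈ U, h' z ≠ 0 → DifferentiableAt ℂ φ z := by
    intro z hz hz0
    exact ((hgd z hz).differentiableAt (hUo.mem_nhds hz)).div
      ((hhd z hz).differentiableAt (hUo.mem_nhds hz)) hz0
  have hFφ : ∀ z ∈ U, h' z ≠ 0 → F z = φ z := by
    intro z hz hz0
    exact ((hφd z hz hz0).continuousAt.tendsto.mono_left nhdsWithin_le_nhds).limUnder_eq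
  have hBc : ∀ z0 ∈ U, ∀ᶠ z in 𝓝 z0, B (ofComplex z) ≤ B (ofComplex z0) + 1 := by
    intro z0 hz0
    have hc : ContinuousAt (fun z => B (ofComplex z)) z0 :=
      hB.continuousAt.comp (UpperHalfPlane.contMDiffAt_ofComplex (n := 0) hz0).continuousAt
    exact hc.eventually_le_const (by linarith)
  have hkey : ∀ z0 ∈ U, DifferentiableAt ℂ F z0 ∧ h' z0 * F z0 = g' z0 := by
    intro z0 hz0
    have hs : {z | z ∈ U ∧ (z ≠ z0 → h' z ≠ 0) ∧ B (ofComplex z) ≤ B (ofComplex z0) + 1} ∈ 𝓝 z0 := by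
      have h1 := eventually_nhdsWithin_iff.mp (hA z0 hz0)
      filter_upwards [hUo.mem_nhds hz0, h1, hBc z0 hz0] with z hz1 hz2 hz3
      exact ⟨hz1, fun hne => hz2 hne, hz3⟩
    set s := {z | z ∈ U ∧ (z ≠ z0 → h' z ≠ 0) ∧ B (ofComplex z) ≤ B (ofComplex z0) + 1} with hsdef
    have hd : DifferentiableOn ℂ φ (s \ {z0}) := by
      intro z hz
      exact (hφd z hz.1.1 (hz.1.2.1 hz.2)).differentiableWithinAt
    have hb : BddAbove (norm ∘ φ '' (s \ {z0})) := by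
      refine ⟨B (ofComplex z0) + 1, ?_⟩
      rintro _ ⟨z, hz, rfl⟩
      have h1 := hbd (ofComplex z) (hz.1.2.1 hz.2)
      exact h1.trans hz.1.2.2
    have hupd := Complex.differentiableOn_update_limUnder_of_bddAbove hs hd hb
    have hev : F =ᶠ[𝓝 z0] Function.update φ z0 (limUnder (𝓝[≠] z0) φ) := by
      filter_upwards [hs] with z hz
      by_cases hzz : z = z0
      · subst hzz; simp [hF]
      · rw [Function.update_of_ne hzz]
        exact hFφ z hz.1 (hz.2.1 hzz)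
    have hFd : DifferentiableAt ℂ F z0 :=
      ((hupd z0 (mem_of_mem_nhds hs)).differentiableAt hs).congr_of_eventuallyEq hev
    refine ⟨hFd, ?_⟩
    have hcont : ContinuousAt (fun z => h' z * F z - g' z) z0 :=
      (((hhd z0 hz0).differentiableAt (hUo.mem_nhds hz0)).continuousAt.mul hFd.continuousAt).sub
        ((hgd z0 hz0).differentiableAt (hUo.mem_nhds hz0)).continuousAt
    have ht1 : Tendsto (fun z => h' z * F z - g' z) (𝓝[≠] z0) (𝓝 (h' z0 * F z0 - g' z0)) :=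
      hcont.tendsto.mono_left nhdsWithin_le_nhds
    have ht2 : Tendsto (fun z => h' z * F z - g' z) (𝓝[≠] z0) (𝓝 0) := by
      refine tendsto_const_nhds.congr' ?_
      have h1 : ∀ᶠ z in 𝓝[≠] z0, z ∈ U := nhdsWithin_le_nhds (hUo.mem_nhds hz0)
      filter_upwards [hA z0 hz0, h1] with z hz hzU
      rw [hFφ z hzU hz]
      simp only [hφ]
      field_simp
      ring
    exact sub_eq_zero.mp (tendsto_nhds_unique ht1 ht2)
  refine ⟨fun τ => F τ, ?_, fun τ => ?_⟩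
  · rw [UpperHalfPlane.mdifferentiable_iff]
    intro z hz
    refine ((hkey z hz).1.differentiableWithinAt).congr (fun w hw => ?_) ?_
    · simp [Function.comp, ofComplex_apply_of_im_pos hw]
    · simp [Function.comp, ofComplex_apply_of_im_pos hz]
  · have := (hkey τ τ.im_pos).2
    simpa [hh', hg'] using this

lemma eq_zero_of_forall_ne_zero {h R : ℍ → ℂ} (hh : MDiff h) (hh0 : h ≠ 0) (hR : MDiff R)
    (hz : ∀ τ, h τ ≠ 0 → R τ = 0) : R = 0 := by
  have h1 : ¬ ∃ᶠ z in 𝓝[≠] (I : ℍ), h z = 0 := fun hf => hh0 (eq_zero_of_frequently hh hf)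
  rw [not_frequently] at h1
  exact eq_zero_of_frequently (τ := I) hR (h1.mono hz).frequently

theorem exists_cuspForm_mul_eq {Γ : Subgroup SL(2, ℤ)} [Γ.FiniteIndex] {k w : ℤ} {d : ℕ}
    (G : ModularForm Γ (k + w)) (H : ModularForm Γ w) (hH : H ≠ 0)
    (e : Fin d → ℍ → ℂ)
    (he_mdiff : ∀ i, MDiff (e i))
    (he_slash : ∀ (i : Fin d) (γ : SL(2, ℤ)), e i ∣[k * ((d : ℤ) - ((i : ℕ) : ℤ))] γ = e i)
    (he_zero : ∀ i, IsZeroAtImInfty (e i))
    (hrel : ∀ τ, G τ ^ d + ∑ i : Fin d, e i τ * G τ ^ (i : ℕ) * H τ ^ (d - (i : ℕ)) = 0) :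
    ∃ f : CuspForm Γ k, ∀ τ, H τ * f τ = G τ := by
  have hH0 : (H : ℍ → ℂ) ≠ 0 := fun h => hH (DFunLike.coe_injective h)
  have hroot : ∀ (τ : ℍ) (x : ℂ), H τ ≠ 0 → H τ * x = G τ →
      x ^ d + ∑ i : Fin d, e i τ * x ^ (i : ℕ) = 0 := by
    intro τ x hτ hx
    have h1 := hrel τ
    rw [← hx] at h1
    have h2 : (H τ * x) ^ d + ∑ i : Fin d, e i τ * (H τ * x) ^ (i : ℕ) * H τ ^ (d - (i : ℕ))
        = H τ ^ d * (x ^ d + ∑ i : Fin d, e i τ * x ^ (i : ℕ)) := by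
      rw [mul_add, Finset.mul_sum, mul_pow]
      congr 1
      refine Finset.sum_congr rfl fun i _ => ?_
      have hm : H τ ^ d = H τ ^ (i : ℕ) * H τ ^ (d - (i : ℕ)) := by
        rw [← pow_add]; congr 1; have := i.2; omega
      rw [hm, mul_pow]
      ring
    rw [h2] at h1
    exact (mul_eq_zero.mp h1).resolve_left (pow_ne_zero _ hτ)
  obtain ⟨F, hFmd, hF⟩ := exists_mdiff_mul_eq (g := G) (h := H) G.holo' H.holo' hH0
    (fun τ => max 1 (∑ i : Fin d, ‖e i τ‖))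
    (continuous_const.max (continuous_finsetSum _ fun i _ => (he_mdiff i).continuous.norm))
    (fun τ hτ => norm_le_max_of_monic_relation (hroot τ _ hτ (by field_simp)))
  have hrelF : ∀ τ, F τ ^ d + ∑ i : Fin d, e i τ * F τ ^ (i : ℕ) = 0 := by
    have hR : MDiff (fun τ => F τ ^ d + ∑ i : Fin d, e i τ * F τ ^ (i : ℕ)) := by
      refine (hFmd.pow d).add ?_
      have : (fun τ => ∑ i : Fin d, e i τ * F τ ^ (i : ℕ)) =
          ∑ i : Fin d, (fun τ => e i τ * F τ ^ (i : ℕ)) := by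
        ext τ; simp
      rw [this]
      exact MDifferentiable.sum fun i _ => (he_mdiff i).mul (hFmd.pow _)
    have := eq_zero_of_forall_ne_zero H.holo' hH0 hR (fun τ hτ => hroot τ _ hτ (hF τ))
    exact fun τ => congrFun this τ
  have hslash : ∀ γ ∈ Γ, F ∣[k] γ = F := by
    intro γ hγ
    have hGγ : (G : ℍ → ℂ) ∣[k + w] γ = G :=
      SlashInvariantFormClass.slash_action_eq G _ (Subgroup.mem_map_of_mem _ hγ)
    have hHγ : (H : ℍ → ℂ) ∣[w] γ = H :=
      SlashInvariantFormClass.slash_action_eq H _ (Subgroup.mem_map_of_mem _ hγ)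
    have hHF : F * (H : ℍ → ℂ) = G := funext fun τ => by
      simpa [mul_comm] using hF τ
    have h1 : (F ∣[k] γ) * (H : ℍ → ℂ) = G := by
      conv_rhs => rw [← hGγ, ← hHF, mul_slash_SL2, hHγ]
    have hR : MDiff (F ∣[k] γ - F) := (hFmd.slash k _).sub hFmd
    have := eq_zero_of_forall_ne_zero H.holo' hH0 hR (fun τ hτ => by
      have h2 := congrFun h1 τ
      simp only [Pi.mul_apply] at h2
      have h3 := hF τ
      simp only [Pi.sub_apply]
      rw [mul_comm] at h2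
      exact sub_eq_zero.mpr (mul_left_cancel₀ hτ (h2.trans h3.symm)))
    exact sub_eq_zero.mp this
  have hcusp : ∀ δ : SL(2, ℤ), IsZeroAtImInfty (F ∣[k] δ) := by
    intro δ
    have hrelδ : ∀ τ, (F ∣[k] δ) τ ^ d + ∑ i : Fin d, e i τ * (F ∣[k] δ) τ ^ (i : ℕ) = 0 := by
      intro τ
      set D : ℂ := denom (Matrix.SpecialLinearGroup.toGL
        ((Matrix.SpecialLinearGroup.map (Int.castRingHom ℝ)) δ)) ↑τ with hD
      set u : ℂ := D ^ (-k) with hu
      have he : ∀ i : Fin d, e i τ = e i (δ • τ) * u ^ (d - (i : ℕ)) := by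
        intro i
        conv_lhs => rw [← he_slash i δ, SL_slash_apply]
        congr 1
        rw [hu, ← zpow_natCast, ← zpow_mul]
        congr 1
        have := i.2
        rw [Nat.cast_sub this.le]
        ring
      rw [SL_slash_apply, ← hD, ← hu]
      have h1 := hrelF (δ • τ)
      have h2 : (F (δ • τ) * u) ^ d + ∑ i : Fin d, e i τ * (F (δ • τ) * u) ^ (i : ℕ) =
          u ^ d * (F (δ • τ) ^ d + ∑ i : Fin d, e i (δ • τ) * F (δ • τ) ^ (i : ℕ)) := by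
        rw [mul_add, Finset.mul_sum, mul_pow, mul_comm]
        congr 1
        refine Finset.sum_congr rfl fun i _ => ?_
        have hm : u ^ d = u ^ (i : ℕ) * u ^ (d - (i : ℕ)) := by
          rw [← pow_add]; congr 1; have := i.2; omega
        rw [hm, mul_pow, he i]
        ring
      rw [h2, h1, mul_zero]
    have hsum : Tendsto (fun τ => ∑ i : Fin d, ‖e i τ‖) atImInfty (𝓝 0) := by
      have : Tendsto (fun τ => ∑ i : Fin d, ‖e i τ‖) atImInfty (𝓝 (∑ i : Fin d, (0 : ℝ))) :=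
        tendsto_finsetSum _ fun i _ => by
          simpa using (he_zero i).norm
      simpa using this
    rw [IsZeroAtImInfty, ZeroAtFilter, Metric.tendsto_nhds]
    intro ε hε
    have hε' : 0 < min ε 1 := lt_min hε one_pos
    have h3 : ∀ᶠ τ in atImInfty, ∑ i : Fin d, ‖e i τ‖ < (min ε 1) ^ d :=
      hsum.eventually_lt_const (pow_pos hε' d)
    filter_upwards [h3] with τ hτ
    rw [dist_zero_right]
    exact (norm_lt_of_monic_relation hε' (min_le_right _ _) (hrelδ τ) hτ).trans_le (min_le_left _ _)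
  refine ⟨{ toFun := F, slash_action_eq' := ?_, holo' := hFmd, zero_at_cusps' := ?_ }, fun τ => hF τ⟩
  · rintro _ ⟨γ, hγ, rfl⟩
    exact hslash γ hγ
  · intro c hc
    rw [Subgroup.IsArithmetic.isCusp_iff_isCusp_SL2Z] at hc
    rw [OnePoint.isZeroAt_iff_forall_SL2Z hc]
    exact fun γ _ => hcusp γ

end Division

/-- L4 -/
theorem exists_cuspForm_of_integral (Γ : Subgroup SL(2, ℤ)) [Γ.FiniteIndex] {k w : ℤ}
    (G : ModularForm Γ (k + w)) (H : ModularForm Γ w) (hH : H ≠ 0) (d : ℕ)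
    (e : (i : Fin d) → CuspForm 𝒮ℒ (k * (d - i)))
    (hrel : ∀ z : ℍ, G z ^ d + ∑ i : Fin d, e i z * G z ^ (i : ℕ) * H z ^ (d - i : ℕ) = 0) :
    ∃ φ : CuspForm Γ k, ∀ z, H z * φ z = G z := by
  refine Division.exists_cuspForm_mul_eq G H hH (fun i => (e i : ℍ → ℂ)) (fun i => (e i).holo')
    (fun i γ => ?_) (fun i => ?_) hrel
  · exact SlashInvariantFormClass.slash_action_eq (e i) _ ⟨γ, rfl⟩
  · have h1 : IsCusp OnePoint.infty 𝒮ℒ := isCusp_SL2Z_iff'.mpr ⟨1, by simp⟩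
    exact OnePoint.isZeroAt_infty_iff.mp ((e i).zero_at_cusps' h1)

end Fermat.Agent.IntStruct
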