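import Mathlib

set_option autoImplicit false

namespace Fermat.Agent.IntStruct.FixedField

open Cardinal Polynomial

/-- Two uncountable algebraically closed fields of the same cardinality, both receiving an
injective ring hom from a countable ring `R`, are isomorphic compatibly with these maps. -/
theorem exists_ringEquiv_extending {R K L : Type} [CommRing R] [Nontrivial R]
    [Field K] [Field L] [IsAlgClosed K] [IsAlgClosed L]
    (i₁ : R →+* K) (i₂ : R →+* L) (h₁ : Function.Injective i₁) (h₂ : Function.Injective i₂)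
    (hR : #R ≤ ℵ₀) (hK : ℵ₀ < #K) (hKL : #K = #L) :
    ∃ σ : K ≃+* L, ∀ r, σ (i₁ r) = i₂ r := by
  let _ : Algebra R K := i₁.toAlgebra
  let _ : Algebra R L := i₂.toAlgebra
  haveI : FaithfulSMul R K := (faithfulSMul_iff_algebraMap_injective R K).mpr h₁
  haveI : FaithfulSMul R L := (faithfulSMul_iff_algebraMap_injective R L).mpr h₂
  obtain ⟨s, hs⟩ := exists_isTranscendenceBasis R K
  obtain ⟨t, ht⟩ := exists_isTranscendenceBasis R L
  have hs' : #K = #s :=
    IsAlgClosed.cardinal_eq_cardinal_transcendence_basis_of_aleph0_lt' _ hs hR hK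
  have ht' : #L = #t :=
    IsAlgClosed.cardinal_eq_cardinal_transcendence_basis_of_aleph0_lt' _ ht hR (hKL ▸ hK)
  obtain ⟨e⟩ : Nonempty (s ≃ t) := Cardinal.eq.mp (by rw [← hs', ← ht', hKL])
  letI := IsAlgClosed.isAlgClosure_of_transcendence_basis _ hs
  letI := IsAlgClosed.isAlgClosure_of_transcendence_basis _ ht
  let e' : Algebra.adjoin R (Set.range (Subtype.val : s → K)) ≃ₐ[R]
      Algebra.adjoin R (Set.range (Subtype.val : t → L)) :=
    (hs.1.aevalEquiv.symm.trans (MvPolynomial.renameEquiv R e)).trans ht.1.aevalEquiv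
  refine ⟨IsAlgClosure.equivOfEquiv K L e'.toRingEquiv, fun r => ?_⟩
  have h1 : i₁ r = algebraMap (Algebra.adjoin R (Set.range (Subtype.val : s → K))) K
      (algebraMap R _ r) := rfl
  rw [h1, IsAlgClosure.equivOfEquiv_algebraMap]
  have h2 : e'.toRingEquiv (algebraMap R _ r) = algebraMap R _ r := e'.commutes r
  rw [h2]
  rfl


theorem mk_ratPolynomial_le : #(ℚ[X]) ≤ ℵ₀ := by
  refine Polynomial.cardinalMk_le_max.trans ?_
  simp

theorem countable_ratPolynomial : Countable ℚ[X] :=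
  Cardinal.mk_le_aleph0_iff.mp mk_ratPolynomial_le

theorem exists_ringEquiv_ne_of_transcendental (x : ℂ) (hx : Transcendental ℚ x) :
    ∃ σ : ℂ ≃+* ℂ, σ x ≠ x := by
  have hx1 : Transcendental ℚ (x + 1) := by
    intro h
    apply hx
    have := h.sub (isAlgebraic_one (R := ℚ) (A := ℂ))
    simpa using this
  obtain ⟨σ, hσ⟩ := exists_ringEquiv_extending (R := ℚ[X]) (K := ℂ) (L := ℂ)
    (aeval x : ℚ[X] →ₐ[ℚ] ℂ).toRingHom (aeval (x + 1) : ℚ[X] →ₐ[ℚ] ℂ).toRingHom
    (transcendental_iff_injective.mp hx) (transcendental_iff_injective.mp hx1)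
    mk_ratPolynomial_le (by rw [Cardinal.mk_complex]; exact Cardinal.aleph0_lt_continuum) rfl
  refine ⟨σ, ?_⟩
  have := hσ X
  simp only [AlgHom.toRingHom_eq_coe, RingHom.coe_coe, aeval_X] at this
  rw [this]
  simp

theorem exists_ringEquiv_ne_of_isAlgebraic (x : ℂ) (hx : IsAlgebraic ℚ x)
    (hxQ : x ∉ Set.range ((↑) : ℚ → ℂ)) :
    ∃ σ : ℂ ≃+* ℂ, σ x ≠ x := by
  have hint : IsIntegral ℚ x := hx.isIntegral
  have hirr : Irreducible (minpoly ℚ x) := minpoly.irreducible hint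
  have hinj : ∀ f : AdjoinRoot (minpoly ℚ x) →+* ℂ, Function.Injective f := by
    intro f
    haveI : Fact (Irreducible (minpoly ℚ x)) := ⟨hirr⟩
    exact RingHom.injective f
  have hnt : Nontrivial (AdjoinRoot (minpoly ℚ x)) := AdjoinRoot.nontrivial _ hirr.degree_pos.ne'
  have hsep : (minpoly ℚ x).Separable := hirr.separable
  have hdeg : 2 ≤ (minpoly ℚ x).natDegree := by
    rw [Nat.succ_le_iff]
    apply lt_of_le_of_ne (minpoly.natDegree_pos hint)
    intro h
    apply hxQ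
    have := (minpoly.natDegree_eq_one_iff (A := ℚ) (x := x)).mp h.symm
    obtain ⟨q, hq⟩ := this
    exact ⟨q, by simpa using hq⟩
  have hcard : Fintype.card ((minpoly ℚ x).rootSet ℂ) = (minpoly ℚ x).natDegree :=
    Polynomial.card_rootSet_eq_natDegree hsep (IsAlgClosed.splits _)
  obtain ⟨x', hx', hne⟩ : ∃ x' ∈ (minpoly ℚ x).rootSet ℂ, x' ≠ x := by
    by_contra hcon
    push Not at hcon
    have : Fintype.card ((minpoly ℚ x).rootSet ℂ) ≤ 1 := by
      rw [Fintype.card_le_one_iff]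
      intro a b
      exact Subtype.ext ((hcon a a.2).trans (hcon b b.2).symm)
    omega
  have hx'root : aeval x' (minpoly ℚ x) = 0 := (Polynomial.mem_rootSet.mp hx').2
  have hcount : Countable (AdjoinRoot (minpoly ℚ x)) :=
    haveI := countable_ratPolynomial
    (AdjoinRoot.mk_surjective (g := minpoly ℚ x)).countable
  obtain ⟨σ, hσ⟩ := exists_ringEquiv_extending (R := AdjoinRoot (minpoly ℚ x)) (K := ℂ) (L := ℂ)
    (AdjoinRoot.lift (algebraMap ℚ ℂ) x (minpoly.aeval ℚ x))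
    (AdjoinRoot.lift (algebraMap ℚ ℂ) x' hx'root)
    (hinj _) (hinj _)
    (Cardinal.mk_le_aleph0) (by rw [Cardinal.mk_complex]; exact Cardinal.aleph0_lt_continuum) rfl
  refine ⟨σ, ?_⟩
  have e1 : AdjoinRoot.lift (algebraMap ℚ ℂ) x (minpoly.aeval ℚ x) (AdjoinRoot.root _) = x :=
    AdjoinRoot.lift_root _
  have e2 : AdjoinRoot.lift (algebraMap ℚ ℂ) x' hx'root (AdjoinRoot.root _) = x' :=
    AdjoinRoot.lift_root _
  have h3 : σ x = x' := ((congrArg σ e1).symm.trans (hσ (AdjoinRoot.root _))).trans e2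
  rw [h3]
  exact hne

/-- A complex number which is not rational is moved by some ring automorphism of `ℂ`. -/
theorem exists_ringEquiv_ne (x : ℂ) (hx : x ∉ Set.range ((↑) : ℚ → ℂ)) :
    ∃ σ : ℂ ≃+* ℂ, σ x ≠ x := by
  by_cases h : IsAlgebraic ℚ x
  · exact exists_ringEquiv_ne_of_isAlgebraic x h hx
  · exact exists_ringEquiv_ne_of_transcendental x h

theorem exists_ringHom_ne (x : ℂ) (hx : x ∉ Set.range ((↑) : ℚ → ℂ)) :
    ∃ σ : ℂ →+* ℂ, σ x ≠ x := by
  obtain ⟨σ, hσ⟩ := exists_ringEquiv_ne x hx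
  exact ⟨σ.toRingHom, hσ⟩

/-- A complex number fixed by all ring endomorphisms of `ℂ` is rational. -/
theorem exists_rat_of_forall_ringHom_eq (x : ℂ) (hx : ∀ σ : ℂ →+* ℂ, σ x = x) :
    ∃ r : ℚ, (r : ℂ) = x := by
  by_contra h
  obtain ⟨σ, hσ⟩ := exists_ringHom_ne x (by rintro ⟨r, hr⟩; exact h ⟨r, hr⟩)
  exact hσ (hx σ)

end Fermat.Agent.IntStruct.FixedField

namespace Fermat.Agent.IntStruct

/-- L5a: a complex number fixed by every ring endomorphism of `ℂ` is rational. -/
theorem exists_rat_of_forall_ringHom_fixed (x : ℂ) (h : ∀ σ : ℂ →+* ℂ, σ x = x) :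
    ∃ r : ℚ, x = (r : ℂ) := by
  obtain ⟨r, hr⟩ := FixedField.exists_rat_of_forall_ringHom_eq x h
  exact ⟨r, hr.symm⟩

end Fermat.Agent.IntStruct
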