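import Fermat.Agent.IntStruct.LevelOne

set_option autoImplicit false

open UpperHalfPlane
open scoped MatrixGroups Manifold

namespace Fermat.Agent.IntStruct

open ModularForm ModularFormClass

/-- Conjugating the `q`-expansion of a level one form by a ring endomorphism of `ℂ` gives the
`q`-expansion of a level one form. -/
theorem exists_levelOne_map (σ : ℂ →+* ℂ) {k : ℤ} (F : ModularForm 𝒮ℒ k) :
    ∃ F' : ModularForm 𝒮ℒ k, qExpansion 1 F' = PowerSeries.map σ (qExpansion 1 F) := by
  induction levelOne_mem_span_int k F using Submodule.span_induction with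
  | mem g hg =>
    refine ⟨g, ?_⟩
    ext n
    obtain ⟨m, hm⟩ := hg n
    simp [hm]
  | zero =>
    refine ⟨0, ?_⟩
    simp [qExpansion_zero]
  | add x y _ _ hx hy =>
    obtain ⟨x', hx'⟩ := hx
    obtain ⟨y', hy'⟩ := hy
    refine ⟨x' + y', ?_⟩
    rw [FunLike.coe_add, FunLike.coe_add,
      ModularForm.qExpansion_add one_pos one_mem_strictPeriods_SL,
      ModularForm.qExpansion_add one_pos one_mem_strictPeriods_SL, map_add, hx', hy']
  | smul c x _ hx =>
    obtain ⟨x', hx'⟩ := hx
    refine ⟨σ c • x', ?_⟩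
    rw [FunLike.coe_smul, FunLike.coe_smul,
      ModularForm.qExpansion_smul one_pos one_mem_strictPeriods_SL,
      ModularForm.qExpansion_smul one_pos one_mem_strictPeriods_SL, hx']
    ext n
    simp

/-- Cusp form version of `exists_levelOne_map`. -/
theorem exists_levelOne_cuspForm_map (σ : ℂ →+* ℂ) {k : ℤ} (F : CuspForm 𝒮ℒ k) :
    ∃ F' : CuspForm 𝒮ℒ k, qExpansion 1 F' = PowerSeries.map σ (qExpansion 1 F) := by
  obtain ⟨G, hG⟩ := exists_levelOne_map σ (CuspForm.toModularFormₗ F)
  have hF0 : (qExpansion 1 F).coeff 0 = 0 :=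
    CuspFormClass.qExpansion_coeff_zero F one_pos one_mem_strictPeriods_SL
  have hcoe : (⇑(CuspForm.toModularFormₗ F) : ℍ → ℂ) = ⇑F := rfl
  rw [hcoe] at hG
  have h0 : (qExpansion 1 G).coeff 0 = 0 := by
    rw [hG, PowerSeries.coeff_map, hF0, map_zero]
  exact ⟨toCuspForm G h0, hG⟩

end Fermat.Agent.IntStruct
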