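import Mathlib
import Fermat.Prelude.Thm_CongruenceSubgroup_one_mem_strictPeriods_Gamma0
import Fermat.Agent.IntStruct.IntSpan
import Fermat.Agent.IntStruct.Conjugates
import Fermat.Agent.IntStruct.Cramer
import Fermat.Agent.IntStruct.Division
import Fermat.Agent.IntStruct.LevelOneConj

set_option autoImplicit false

open UpperHalfPlane
open scoped MatrixGroups Manifold ModularForm Topology

noncomputable section

namespace Fermat.Agent.IntStruct

/-- functions on the upper half plane having a `q`-expansion. -/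
structure Nice (F : ℍ → ℂ) : Prop where
  per : Function.Periodic (F ∘ ofComplex) ((1 : ℝ) : ℂ)
  hol : MDiff F
  bdd : IsBoundedAtImInfty F

namespace Nice

variable {F G : ℍ → ℂ}

lemma analytic (hF : Nice F) : AnalyticAt ℂ (cuspFunction 1 F) 0 :=
  analyticAt_cuspFunction_zero one_pos hF.per hF.hol hF.bdd

lemma mul (hF : Nice F) (hG : Nice G) : Nice (F * G) :=
  ⟨hF.per.mul hG.per, hF.hol.mul hG.hol, hF.bdd.mul hG.bdd⟩

lemma add (hF : Nice F) (hG : Nice G) : Nice (F + G) :=
  ⟨hF.per.add hG.per, hF.hol.add hG.hol, hF.bdd.add hG.bdd⟩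

lemma one : Nice 1 :=
  ⟨fun _ => rfl, mdifferentiable_const, Filter.const_boundedAtFilter _ _⟩

lemma zero : Nice 0 :=
  ⟨fun _ => rfl, mdifferentiable_const, Filter.const_boundedAtFilter _ _⟩

lemma pow (hF : Nice F) (n : ℕ) : Nice (F ^ n) := by
  induction n with
  | zero => simpa using one
  | succ n ih => rw [pow_succ]; exact ih.mul hF

lemma sum {ι : Type*} {s : Finset ι} {F : ι → ℍ → ℂ} (h : ∀ i ∈ s, Nice (F i)) :
    Nice (∑ i ∈ s, F i) := by
  classical
  induction s using Finset.induction_on with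
  | empty => simpa using zero
  | insert a s ha ih =>
    rw [Finset.sum_insert ha]
    exact (h a (Finset.mem_insert_self a s)).add
      (ih fun i hi => h i (Finset.mem_insert_of_mem hi))

lemma qExp_mul (hF : Nice F) (hG : Nice G) :
    qExpansion 1 (F * G) = qExpansion 1 F * qExpansion 1 G :=
  qExpansion_mul hF.analytic hG.analytic

lemma qExp_add (hF : Nice F) (hG : Nice G) :
    qExpansion 1 (F + G) = qExpansion 1 F + qExpansion 1 G :=
  qExpansion_add hF.analytic hG.analytic

lemma qExp_pow (hF : Nice F) (n : ℕ) : qExpansion 1 (F ^ n) = qExpansion 1 F ^ n := by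
  induction n with
  | zero => simpa using qExpansion_one 1
  | succ n ih => rw [pow_succ, (hF.pow n).qExp_mul hF, ih, pow_succ]

lemma qExp_sum {ι : Type*} {s : Finset ι} {F : ι → ℍ → ℂ} (h : ∀ i ∈ s, Nice (F i)) :
    qExpansion 1 (∑ i ∈ s, F i) = ∑ i ∈ s, qExpansion 1 (F i) := by
  classical
  induction s using Finset.induction_on with
  | empty => simpa using qExpansion_zero 1
  | insert a s ha ih =>
    rw [Finset.sum_insert ha, Finset.sum_insert ha,
      (h a (Finset.mem_insert_self a s)).qExp_add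
        (sum fun i hi => h i (Finset.mem_insert_of_mem hi)),
      ih fun i hi => h i (Finset.mem_insert_of_mem hi)]

lemma eq_zero (hF : Nice F) (h : qExpansion 1 F = 0) : F = 0 :=
  (qExpansion_eq_zero_iff one_pos hF.per hF.hol hF.bdd).mp h

end Nice

lemma nice_of_modularFormClass {Γ : Subgroup (GL (Fin 2) ℝ)} [Γ.IsArithmetic] {n : ℤ}
    {A : Type*} [FunLike A ℍ ℂ] [ModularFormClass A Γ n]
    (hΓ : (1 : ℝ) ∈ Γ.strictPeriods) (f : A) : Nice f :=
  ⟨SlashInvariantFormClass.periodic_comp_ofComplex f hΓ, ModularFormClass.holo f,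
    ModularFormClass.bdd_at_infty f⟩

/-- Galois conjugation of `q`-expansions preserves cusp forms on `Γ₀(N)`. -/
theorem exists_cuspForm_map (N : ℕ) [NeZero N] {k : ℤ} (σ : ℂ →+* ℂ)
    (f : CuspForm (CongruenceSubgroup.Gamma0 N) k) :
    ∃ φ : CuspForm (CongruenceSubgroup.Gamma0 N) k,
      qExpansion 1 φ = PowerSeries.map σ (qExpansion 1 f) := by
  have hΓ := CongruenceSubgroup.one_mem_strictPeriods_Gamma0 N
  have hS := one_mem_strictPeriods_SL
  obtain ⟨d, e, hrel⟩ := exists_monic_relation f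
  obtain ⟨w, H, G, hH0, hH, hG, hHG⟩ := exists_denominator N f
  obtain ⟨H', -, hH'⟩ := exists_conj_of_mem_intSpan hΓ σ hH
  obtain ⟨G', -, hG'⟩ := exists_conj_of_mem_intSpan hΓ σ hG
  choose e' he' using fun i => exists_levelOne_cuspForm_map σ (e i)
  have nH : Nice H := nice_of_modularFormClass hΓ H
  have nG : Nice G := nice_of_modularFormClass hΓ G
  have nH' : Nice H' := nice_of_modularFormClass hΓ H'
  have nG' : Nice G' := nice_of_modularFormClass hΓ G'
  have nf : Nice f := nice_of_modularFormClass hΓ f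
  have ne : ∀ i, Nice (e i) := fun i => nice_of_modularFormClass hS (e i)
  have ne' : ∀ i, Nice (e' i) := fun i => nice_of_modularFormClass hS (e' i)
  -- the relation for `G`, `H`
  have h1 : (⇑G) ^ d + ∑ i : Fin d, ⇑(e i) * (⇑G) ^ (i : ℕ) * (⇑H) ^ (d - i : ℕ) = 0 := by
    funext z
    simp only [Pi.add_apply, Pi.pow_apply, Finset.sum_apply, Pi.mul_apply, Pi.zero_apply]
    have h2 := congrArg (fun x => H z ^ d * x) (hrel z)
    simp only [mul_zero, mul_add, Finset.mul_sum] at h2
    rw [← h2, ← hHG z, mul_pow]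
    congr 1
    refine Finset.sum_congr rfl fun i _ => ?_
    have hi : H z ^ d = H z ^ (i : ℕ) * H z ^ (d - i : ℕ) := by
      rw [← pow_add]
      congr 1
      have := i.2
      omega
    rw [hi, mul_pow]
    ring
  have q1 : qExpansion 1 G ^ d + ∑ i : Fin d,
      qExpansion 1 (e i) * qExpansion 1 G ^ (i : ℕ) * qExpansion 1 H ^ (d - i : ℕ) = 0 := by
    have := congrArg (qExpansion 1) h1
    rw [(nG.pow d).qExp_add (Nice.sum fun i _ => ((ne i).mul (nG.pow _)).mul (nH.pow _)),
      nG.qExp_pow, Nice.qExp_sum fun i _ => ((ne i).mul (nG.pow _)).mul (nH.pow _),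
      qExpansion_zero] at this
    rw [← this]
    congr 1
    refine Finset.sum_congr rfl fun i _ => ?_
    rw [((ne i).mul (nG.pow _)).qExp_mul (nH.pow _), (ne i).qExp_mul (nG.pow _), nG.qExp_pow,
      nH.qExp_pow]
  have h1' : (⇑G') ^ d + ∑ i : Fin d, ⇑(e' i) * (⇑G') ^ (i : ℕ) * (⇑H') ^ (d - i : ℕ) = 0 := by
    apply Nice.eq_zero
      ((nG'.pow d).add (Nice.sum fun i _ => ((ne' i).mul (nG'.pow _)).mul (nH'.pow _)))
    rw [(nG'.pow d).qExp_add (Nice.sum fun i _ => ((ne' i).mul (nG'.pow _)).mul (nH'.pow _)),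
      nG'.qExp_pow, Nice.qExp_sum fun i _ => ((ne' i).mul (nG'.pow _)).mul (nH'.pow _)]
    have := congrArg (PowerSeries.map σ) q1
    simp only [map_add, map_pow, map_sum, map_mul, map_zero] at this
    rw [← this, hG']
    congr 1
    refine Finset.sum_congr rfl fun i _ => ?_
    rw [((ne' i).mul (nG'.pow _)).qExp_mul (nH'.pow _), (ne' i).qExp_mul (nG'.pow _),
      nG'.qExp_pow, nH'.qExp_pow, he', hG', hH']
  have hσ : Function.Injective (PowerSeries.map σ) := by
    intro a b hab
    ext n
    have := congrArg (PowerSeries.coeff n) hab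
    simp only [PowerSeries.coeff_map] at this
    exact σ.injective this
  have hqH : qExpansion 1 H ≠ 0 := fun h => hH0 (DFunLike.coe_injective (nH.eq_zero h))
  have hqH' : qExpansion 1 H' ≠ 0 := by
    rw [hH']
    intro h
    exact hqH (hσ (by rw [h, map_zero]))
  have hH'0 : H' ≠ 0 := by
    rintro rfl
    exact hqH' (by simp [qExpansion_zero])
  obtain ⟨φ, hφ⟩ := exists_cuspForm_of_integral (CongruenceSubgroup.Gamma0 N) G' H' hH'0 d e'
    (fun z => by simpa using congrFun h1' z)
  refine ⟨φ, ?_⟩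
  have nφ : Nice φ := nice_of_modularFormClass hΓ φ
  have e1 : qExpansion 1 H' * qExpansion 1 φ = qExpansion 1 G' := by
    rw [← nH'.qExp_mul nφ]
    congr 1
    funext z
    exact hφ z
  have e2 : qExpansion 1 H * qExpansion 1 f = qExpansion 1 G := by
    rw [← nH.qExp_mul nf]
    congr 1
    funext z
    exact hHG z
  have e3 : qExpansion 1 H' * PowerSeries.map σ (qExpansion 1 f) = qExpansion 1 G' := by
    rw [hH', hG', ← e2, map_mul]
  exact mul_left_cancel₀ hqH' (e1.trans e3.symm)

end Fermat.Agent.IntStruct
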