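import Mathlib
import Fermat.Prelude.Def_CuspForm_HeckeAlgebra
import Fermat.Prelude.Def_CuspForm_IntegralStructure
import Fermat.Prelude.Thm_CuspForm_intLattice_fg
import Fermat.Prelude.Thm_CuspForm_mem_intLattice_of_mem_heckeAlgebra
import Fermat.Prelude.Thm_ModularForm_sturm_bound_Gamma0
import Fermat.Prelude.Thm_CongruenceSubgroup_one_mem_strictPeriods_Gamma0

set_option autoImplicit false

namespace Fermat.Agent.IntStruct.HeckeFinite

open CuspForm

theorem cuspForm_eq_zero_of_nonpos (N : ℕ) [NeZero N] {k : ℤ} (hk : k ≤ 0)
    (f : CuspForm (CongruenceSubgroup.Gamma0 N) k) : f = 0 := by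
  have hF : (ModularFormClass.modularForm f : ModularForm (CongruenceSubgroup.Gamma0 N) k) = 0 := by
    apply ModularForm.sturm_bound_Gamma0 N
    intro n hn
    have hn0 : n = 0 := by
      have h1 : k * ((CongruenceSubgroup.Gamma0 N).index : ℤ) ≤ 0 :=
        mul_nonpos_of_nonpos_of_nonneg hk (by positivity)
      have h2 : (k * ((CongruenceSubgroup.Gamma0 N).index : ℤ)).toNat = 0 :=
        Int.toNat_of_nonpos h1
      rw [h2] at hn
      simpa using hn
    subst hn0
    exact CuspFormClass.qExpansion_coeff_zero f one_pos
      (CongruenceSubgroup.one_mem_strictPeriods_Gamma0 N)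
  ext z
  have := congrArg (fun F : ModularForm (CongruenceSubgroup.Gamma0 N) k => F z) hF
  simpa using this

/-- Abstract version: a `ℤ`-subalgebra of `End_ℂ V` stabilising a finitely generated subgroup
spanning `V` is a finitely generated `ℤ`-module. -/
theorem finite_of_stable_lattice {V : Type*} [AddCommGroup V] [Module ℂ V]
    (L : Submodule ℤ V) (hfg : L.FG) (hspan : Submodule.span ℂ (L : Set V) = ⊤)
    (T : Subalgebra ℤ (Module.End ℂ V)) (hT : ∀ t ∈ T, ∀ f ∈ L, t f ∈ L) :
    Module.Finite ℤ T := by
  have : Module.Finite ℤ L := Module.Finite.iff_fg.mpr hfg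
  have : Module.Free ℤ L := by
    have : IsAddTorsionFree V := by
      refine ⟨fun n hn a b hab => ?_⟩
      have h : (n : ℂ) • a = (n : ℂ) • b := by
        simpa only [Nat.cast_smul_eq_nsmul] using hab
      exact smul_right_injective _ (Nat.cast_ne_zero.mpr hn) h
    infer_instance
  let Φ : T →ₗ[ℤ] (L →ₗ[ℤ] L) :=
    { toFun := fun t =>
        { toFun := fun f => ⟨(t : Module.End ℂ V) f, hT t t.2 f f.2⟩
          map_add' := fun f g => Subtype.ext (by simp)
          map_smul' := fun c f => Subtype.ext (by simp) }
      map_add' := fun s t => by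
        ext f
        simp
      map_smul' := fun c t => by
        ext f
        simp }
  have hinj : Function.Injective Φ := by
    intro s t hst
    apply Subtype.ext
    apply LinearMap.ext_on hspan
    intro f hf
    have := congrArg (fun φ : L →ₗ[ℤ] L => ((φ ⟨f, hf⟩ : L) : V)) hst
    simpa [Φ] using this
  exact Module.Finite.of_injective Φ hinj

end Fermat.Agent.IntStruct.HeckeFinite

namespace Fermat.Agent.IntStruct

/-- L7: the Hecke algebra is a finitely generated `ℤ`-module as soon as the space of cusp forms
has an integral structure. -/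
theorem module_finite_heckeAlgebra (N : ℕ) [NeZero N] (k : ℤ) (S : Set ℕ)
    (h : CuspForm.HasIntegralStructure N k) : Module.Finite ℤ (CuspForm.heckeAlgebra N k S) := by
  rcases le_or_gt k 0 with hk | hk
  · have : Subsingleton (CuspForm (CongruenceSubgroup.Gamma0 N) k) :=
      ⟨fun f g => by
        rw [HeckeFinite.cuspForm_eq_zero_of_nonpos N hk f,
          HeckeFinite.cuspForm_eq_zero_of_nonpos N hk g]⟩
    have : Subsingleton (CuspForm.heckeAlgebra N k S) :=
      ⟨fun s t => Subtype.ext (LinearMap.ext fun f => Subsingleton.elim _ _)⟩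
    infer_instance
  · exact HeckeFinite.finite_of_stable_lattice (CuspForm.intLattice N k)
      (CuspForm.intLattice_fg N k) h (CuspForm.heckeAlgebra N k S)
      (fun t ht f hf => CuspForm.mem_intLattice_of_mem_heckeAlgebra (by omega) ht hf)

end Fermat.Agent.IntStruct
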