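import Mathlib
import Fermat.Prelude.Def_CuspForm_IntegralStructure
import Fermat.Prelude.Thm_ModularForm_sturm_bound_Gamma0
import Fermat.Prelude.Thm_CongruenceSubgroup_one_mem_strictPeriods_Gamma0
import Fermat.Agent.IntStruct.BoundedDenom
import Fermat.Agent.IntStruct.LevelOne
import Fermat.Agent.IntStruct.IntSpan
import Fermat.Agent.IntStruct.Conjugates
import Fermat.Agent.IntStruct.Descent

set_option autoImplicit false

open UpperHalfPlane
open scoped MatrixGroups Manifold ModularForm

noncomputable section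

namespace Fermat.Agent.IntStruct.MainCore

/-- functions whose cusp function is analytic at `0`; `qExpansion 1` is a ring morphism on them -/
def Nice (F : ℍ → ℂ) : Prop := AnalyticAt ℂ (cuspFunction 1 F) 0

lemma Nice.mul {F G : ℍ → ℂ} (hF : Nice F) (hG : Nice G) : Nice (F * G) := by
  unfold Nice
  rw [cuspFunction_mul hF.continuousAt hG.continuousAt]
  exact AnalyticAt.mul hF hG

lemma Nice.add {F G : ℍ → ℂ} (hF : Nice F) (hG : Nice G) : Nice (F + G) := by
  unfold Nice
  rw [cuspFunction_add hF.continuousAt hG.continuousAt]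
  exact AnalyticAt.add hF hG

lemma nice_of_form {Γ : Subgroup (GL (Fin 2) ℝ)} (hΓ : (1 : ℝ) ∈ Γ.strictPeriods) {k : ℤ}
    {F : Type*} [FunLike F ℍ ℂ] [ModularFormClass F Γ k] (f : F) : Nice f :=
  ModularFormClass.analyticAt_cuspFunction_zero f one_pos hΓ

lemma nice_one : Nice 1 :=
  nice_of_form one_mem_strictPeriods_SL (1 : ModularForm 𝒮ℒ 0)

lemma nice_zero : Nice 0 :=
  nice_of_form one_mem_strictPeriods_SL (0 : ModularForm 𝒮ℒ 0)

lemma Nice.pow {F : ℍ → ℂ} (hF : Nice F) (n : ℕ) : Nice (F ^ n) := by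
  induction n with
  | zero => simpa using nice_one
  | succ n ih => rw [pow_succ]; exact ih.mul hF

lemma Nice.sum {ι : Type*} {s : Finset ι} {F : ι → ℍ → ℂ} (h : ∀ i ∈ s, Nice (F i)) :
    Nice (∑ i ∈ s, F i) := by
  classical
  induction s using Finset.induction_on with
  | empty => simpa using nice_zero
  | insert a s ha ih =>
    rw [Finset.sum_insert ha]
    exact (h a (Finset.mem_insert_self a s)).add
      (ih fun i hi => h i (Finset.mem_insert_of_mem hi))

lemma qExp_pow {F : ℍ → ℂ} (hF : Nice F) (n : ℕ) :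
    qExpansion 1 (F ^ n) = qExpansion 1 F ^ n := by
  induction n with
  | zero => simp [qExpansion_one]
  | succ n ih => rw [pow_succ, qExpansion_mul (hF.pow n) hF, ih, pow_succ]

lemma qExp_sum {ι : Type*} {s : Finset ι} {F : ι → ℍ → ℂ} (h : ∀ i ∈ s, Nice (F i)) :
    qExpansion 1 (∑ i ∈ s, F i) = ∑ i ∈ s, qExpansion 1 (F i) := by
  classical
  induction s using Finset.induction_on with
  | empty => simp [qExpansion_zero]
  | insert a s ha ih =>
    rw [Finset.sum_insert ha, Finset.sum_insert ha,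
      qExpansion_add (h a (Finset.mem_insert_self a s))
        (Nice.sum fun i hi => h i (Finset.mem_insert_of_mem hi)),
      ih fun i hi => h i (Finset.mem_insert_of_mem hi)]

/-- the `q`-expansion of an element of `intSpan` lies in `intSeriesSpan`. -/
lemma qExpansion_mem_intSeriesSpan {Γ : Subgroup (GL (Fin 2) ℝ)} [Γ.HasDetOne]
    (hΓ : (1 : ℝ) ∈ Γ.strictPeriods) {n : ℤ} {g : ModularForm Γ n} (hg : g ∈ intSpan Γ n) :
    qExpansion 1 g ∈ intSeriesSpan := by
  induction hg using Submodule.span_induction with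
  | mem x hx => exact Submodule.subset_span hx
  | zero => simp [qExpansion_zero]
  | add x y _ _ hx hy =>
    rw [FunLike.coe_add, ModularForm.qExpansion_add one_pos hΓ]
    exact add_mem hx hy
  | smul c x _ hx =>
    rw [FunLike.coe_smul, ModularForm.qExpansion_smul one_pos hΓ]
    exact Submodule.smul_mem _ c hx

/-- level one forms have `q`-expansion in `intSeriesSpan`. -/
lemma qExpansion_levelOne_mem' {k : ℤ} (F : ModularForm 𝒮ℒ k) :
    qExpansion 1 F ∈ intSeriesSpan := by
  induction levelOne_mem_span_int k F using Submodule.span_induction with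
  | mem x hx => exact Submodule.subset_span hx
  | zero => simp [qExpansion_zero]
  | add x y _ _ hx hy =>
    rw [FunLike.coe_add, ModularForm.qExpansion_add one_pos one_mem_strictPeriods_SL]
    exact add_mem hx hy
  | smul c x _ hx =>
    rw [FunLike.coe_smul, ModularForm.qExpansion_smul one_pos one_mem_strictPeriods_SL]
    exact Submodule.smul_mem _ c hx

/-- level one cusp forms have `q`-expansion in `intSeriesSpan`. -/
lemma qExpansion_levelOne_mem {k : ℤ} (e : CuspForm 𝒮ℒ k) : qExpansion 1 e ∈ intSeriesSpan :=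
  qExpansion_levelOne_mem' (CuspForm.toModularFormₗ e)

/-- statement (A) of the plan, for a fixed level and weight -/
def HypA (N : ℕ) (k : ℤ) : Prop :=
  ∀ f : CuspForm (CongruenceSubgroup.Gamma0 N) k,
    ∃ (w : ℤ) (H : ModularForm (CongruenceSubgroup.Gamma0 N) w)
      (G : ModularForm (CongruenceSubgroup.Gamma0 N) (k + w)),
      H ≠ 0 ∧ H ∈ intSpan _ w ∧ G ∈ intSpan _ (k + w) ∧ ∀ z, H z * f z = G z

/-- statement (B) of the plan, for a fixed level and weight -/
def HypB (N : ℕ) (k : ℤ) : Prop :=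
  ∀ (σ : ℂ →+* ℂ) (f : CuspForm (CongruenceSubgroup.Gamma0 N) k),
    ∃ φ : CuspForm (CongruenceSubgroup.Gamma0 N) k,
      qExpansion 1 φ = PowerSeries.map σ (qExpansion 1 f)

/-- (C2): bounded denominators. -/
theorem exists_int_smul_mem_intLattice (N : ℕ) [NeZero N] {k : ℤ} (hA : HypA N k)
    (f : CuspForm (CongruenceSubgroup.Gamma0 N) k)
    (hf : ∀ n, ∃ r : ℚ, (qExpansion 1 f).coeff n = (r : ℂ)) :
    ∃ D : ℤ, D ≠ 0 ∧ (D : ℂ) • f ∈ CuspForm.intLattice N k := by
  have hΓ := CongruenceSubgroup.one_mem_strictPeriods_Gamma0 N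
  obtain ⟨w, H, G, hH0, hH, hG, hrel⟩ := hA f
  obtain ⟨d, e, hmonic⟩ := exists_monic_relation f
  have hfn : Nice f := nice_of_form hΓ f
  have hen : ∀ i, Nice (e i) := fun i =>
    nice_of_form one_mem_strictPeriods_SL (e i)
  have h1 : qExpansion 1 H * qExpansion 1 f = qExpansion 1 G := by
    rw [← qExpansion_mul (nice_of_form hΓ H) hfn]
    congr 1
    ext z
    exact hrel z
  have h2 : qExpansion 1 f ^ d + ∑ i : Fin d, qExpansion 1 (e i) * qExpansion 1 f ^ (i : ℕ) = 0 := by
    have hfun : (⇑f : ℍ → ℂ) ^ d + ∑ i : Fin d, (⇑(e i) : ℍ → ℂ) * (⇑f : ℍ → ℂ) ^ (i : ℕ) = 0 := by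
      ext z
      simpa [Finset.sum_apply] using hmonic z
    have hq := congrArg (qExpansion 1) hfun
    rw [qExpansion_zero, qExpansion_add (hfn.pow d)
      (Nice.sum fun i _ => (hen i).mul (hfn.pow i)), qExp_pow hfn,
      qExp_sum fun i _ => (hen i).mul (hfn.pow i)] at hq
    rw [← hq]
    congr 1
    refine Finset.sum_congr rfl fun i _ => ?_
    rw [qExpansion_mul (hen i) (hfn.pow i), qExp_pow hfn]
  have hH0' : qExpansion 1 H ≠ 0 := by
    rwa [Ne, ModularForm.qExpansion_eq_zero_iff one_pos hΓ]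
  obtain ⟨D, hD0, hD⟩ := exists_int_mul_of_integral (qExpansion 1 f) hf (qExpansion 1 H)
    (qExpansion 1 G) (qExpansion_mem_intSeriesSpan hΓ hH) (qExpansion_mem_intSeriesSpan hΓ hG)
    hH0' h1 d (fun i => qExpansion 1 (e i)) (fun i => qExpansion_levelOne_mem (e i)) h2
  refine ⟨D, hD0, Submodule.subset_span fun n => ?_⟩
  obtain ⟨m, hm⟩ := hD n
  refine ⟨m, ?_⟩
  rw [← hm]
  unfold ModularFormClass.qCoeff
  rw [FunLike.coe_smul, ModularForm.qExpansion_smul one_pos hΓ]
  simp

/-- the coefficient map -/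
def coeffₗ (N : ℕ) (k : ℤ) : CuspForm (CongruenceSubgroup.Gamma0 N) k →ₗ[ℂ] (ℕ → ℂ) where
  toFun f n := (qExpansion 1 f).coeff n
  map_add' f g := by
    ext n
    rw [FunLike.coe_add, ModularForm.qExpansion_add one_pos
      (CongruenceSubgroup.one_mem_strictPeriods_Gamma0 N)]
    simp
  map_smul' c f := by
    ext n
    rw [FunLike.coe_smul, ModularForm.qExpansion_smul one_pos
      (CongruenceSubgroup.one_mem_strictPeriods_Gamma0 N)]
    simp

/-- (C1): the forms with rational coefficients span. -/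
theorem span_rational_eq_top (N : ℕ) [NeZero N] {k : ℤ} (hB : HypB N k) :
    Submodule.span ℂ {f : CuspForm (CongruenceSubgroup.Gamma0 N) k |
      ∀ n, ∃ r : ℚ, (qExpansion 1 f).coeff n = (r : ℂ)} = ⊤ := by
  refine Descent.span_rational_eq_top (coeffₗ N k)
    (Finset.range ((k * (CongruenceSubgroup.Gamma0 N).index).toNat / 12 + 1)) ?_ ?_
  · intro f hf
    have hF : (CuspForm.toModularFormₗ f : ModularForm (CongruenceSubgroup.Gamma0 N) k) = 0 := by
      apply ModularForm.sturm_bound_Gamma0 N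
      intro n hn
      exact hf n (Finset.mem_range.mpr (Nat.lt_succ_of_le hn))
    ext z
    have := congrArg (fun F : ModularForm (CongruenceSubgroup.Gamma0 N) k => F z) hF
    simpa using this
  · intro σ f
    obtain ⟨φ, hφ⟩ := hB σ f
    refine ⟨φ, fun i => ?_⟩
    change (qExpansion 1 φ).coeff i = σ ((qExpansion 1 f).coeff i)
    rw [hφ, PowerSeries.coeff_map]

/-- (C): integral structure from (A) and (B). -/
theorem hasIntegralStructure_of (N : ℕ) [NeZero N] (k : ℤ) (hA : HypA N k) (hB : HypB N k) :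
    CuspForm.HasIntegralStructure N k := by
  unfold CuspForm.HasIntegralStructure
  rw [eq_top_iff, ← span_rational_eq_top N hB, Submodule.span_le]
  intro f hf
  obtain ⟨D, hD0, hD⟩ := exists_int_smul_mem_intLattice N hA f hf
  have hDc : (D : ℂ) ≠ 0 := by exact_mod_cast hD0
  have : f = (D : ℂ)⁻¹ • ((D : ℂ) • f) := by rw [smul_smul, inv_mul_cancel₀ hDc, one_smul]
  rw [this]
  exact Submodule.smul_mem _ _ (Submodule.subset_span hD)

end Fermat.Agent.IntStruct.MainCore
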