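import Mathlib
import Fermat.Prelude.Def_CuspForm_IntegralStructure
import Fermat.Prelude.Thm_CongruenceSubgroup_one_mem_strictPeriods_Gamma0
import Fermat.Prelude.Thm_ModularForm_sturm_bound_Gamma0
import Fermat.Agent.IntStruct.Galois
import Fermat.Agent.IntStruct.Descent
import Fermat.Agent.IntStruct.BoundedDenom

set_option autoImplicit false

open UpperHalfPlane
open scoped MatrixGroups Manifold ModularForm Topology

noncomputable section

namespace Fermat.Agent.IntStruct

variable (N : ℕ) [NeZero N] (k : ℤ)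

/-- the `q`-coefficients as a linear map. -/
def coeffMap : CuspForm (CongruenceSubgroup.Gamma0 N) k →ₗ[ℂ] (ℕ → ℂ) where
  toFun f n := (qExpansion 1 f).coeff n
  map_add' f g := by
    funext n
    have hΓ := CongruenceSubgroup.one_mem_strictPeriods_Gamma0 N
    simp only [FunLike.coe_add, Pi.add_apply]
    rw [ModularForm.qExpansion_add one_pos hΓ f g, map_add]
  map_smul' c f := by
    funext n
    have hΓ := CongruenceSubgroup.one_mem_strictPeriods_Gamma0 N
    simp only [FunLike.coe_smul, Pi.smul_apply, RingHom.id_apply]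
    rw [ModularForm.qExpansion_smul one_pos hΓ c f]
    simp

lemma coeffMap_apply (f : CuspForm (CongruenceSubgroup.Gamma0 N) k) (n : ℕ) :
    coeffMap N k f n = (qExpansion 1 f).coeff n := rfl

theorem span_rat_eq_top :
    Submodule.span ℂ {f : CuspForm (CongruenceSubgroup.Gamma0 N) k |
      ∀ n, ∃ r : ℚ, (qExpansion 1 f).coeff n = (r : ℂ)} = ⊤ := by
  refine Descent.span_rational_eq_top (coeffMap N k)
    (Finset.range ((k * (CongruenceSubgroup.Gamma0 N).index).toNat / 12 + 1)) ?_ ?_
  · intro f hf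
    have hF : (ModularFormClass.modularForm f :
        ModularForm (CongruenceSubgroup.Gamma0 N) k) = 0 := by
      apply ModularForm.sturm_bound_Gamma0 N
      intro n hn
      exact hf n (Finset.mem_range.mpr (Nat.lt_succ_of_le hn))
    ext z
    have := congrArg (fun F : ModularForm (CongruenceSubgroup.Gamma0 N) k => F z) hF
    simpa using this
  · intro σ f
    obtain ⟨φ, hφ⟩ := exists_cuspForm_map N σ f
    refine ⟨φ, fun n => ?_⟩
    rw [coeffMap_apply, coeffMap_apply, hφ, PowerSeries.coeff_map]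

omit [NeZero N] in
lemma qExpansion_mem_intSeriesSpan {Γ : Subgroup (GL (Fin 2) ℝ)} [Γ.HasDetOne]
    (hΓ : (1 : ℝ) ∈ Γ.strictPeriods) {n : ℤ} {g : ModularForm Γ n} (hg : g ∈ intSpan Γ n) :
    qExpansion 1 g ∈ intSeriesSpan := by
  induction hg using Submodule.span_induction with
  | mem x hx => exact Submodule.subset_span hx
  | zero => simp [qExpansion_zero]
  | add x y _ _ hx hy =>
    rw [FunLike.coe_add, ModularForm.qExpansion_add one_pos hΓ]
    exact add_mem hx hy
  | smul c x _ hx =>
    rw [FunLike.coe_smul, ModularForm.qExpansion_smul one_pos hΓ]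
    exact Submodule.smul_mem _ c hx

variable {k}

theorem exists_int_smul_of_rat (f : CuspForm (CongruenceSubgroup.Gamma0 N) k)
    (hf : ∀ n, ∃ r : ℚ, (qExpansion 1 f).coeff n = (r : ℂ)) :
    ∃ D : ℤ, D ≠ 0 ∧ ∀ n, ∃ m : ℤ, (D : ℂ) * (qExpansion 1 f).coeff n = (m : ℂ) := by
  have hΓ := CongruenceSubgroup.one_mem_strictPeriods_Gamma0 N
  have hS := one_mem_strictPeriods_SL
  obtain ⟨d, e, hrel⟩ := exists_monic_relation f
  obtain ⟨w, H, G, hH0, hH, hG, hHG⟩ := exists_denominator N f
  have nH : Nice H := nice_of_modularFormClass hΓ H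
  have nf : Nice f := nice_of_modularFormClass hΓ f
  have ne : ∀ i, Nice (e i) := fun i => nice_of_modularFormClass hS (e i)
  refine exists_int_mul_of_integral (qExpansion 1 f) hf (qExpansion 1 H) (qExpansion 1 G)
    (qExpansion_mem_intSeriesSpan hΓ hH) (qExpansion_mem_intSeriesSpan hΓ hG)
    (fun h => hH0 (DFunLike.coe_injective (nH.eq_zero h))) ?_ d (fun i => qExpansion 1 (e i))
    (fun i => ?_) ?_
  · rw [← nH.qExp_mul nf]
    congr 1
    funext z
    exact hHG z
  · have h2 : CuspForm.toModularFormₗ (e i) ∈ intSpan 𝒮ℒ (k * (d - i)) :=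
      levelOne_mem_span_int _ _
    have h3 := qExpansion_mem_intSeriesSpan hS h2
    have hcoe : (⇑(CuspForm.toModularFormₗ (e i)) : ℍ → ℂ) = ⇑(e i) := rfl
    rw [hcoe] at h3
    exact h3
  · have h1 : (⇑f) ^ d + ∑ i : Fin d, ⇑(e i) * (⇑f) ^ (i : ℕ) = 0 := by
      funext z
      simpa using hrel z
    have := congrArg (qExpansion 1) h1
    rw [(nf.pow d).qExp_add (Nice.sum fun i _ => (ne i).mul (nf.pow _)), nf.qExp_pow,
      Nice.qExp_sum fun i _ => (ne i).mul (nf.pow _), qExpansion_zero] at this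
    rw [← this]
    congr 1
    refine Finset.sum_congr rfl fun i _ => ?_
    rw [(ne i).qExp_mul (nf.pow _), nf.qExp_pow]

variable (k)

/-- `S_k(Γ₀(N))` is spanned by forms with integral `q`-expansion, for every weight. -/
theorem hasIntegralStructure : CuspForm.HasIntegralStructure N k := by
  have hΓ := CongruenceSubgroup.one_mem_strictPeriods_Gamma0 N
  rw [CuspForm.HasIntegralStructure, eq_top_iff, ← span_rat_eq_top N k, Submodule.span_le]
  intro f hf
  obtain ⟨D, hD0, hD⟩ := exists_int_smul_of_rat N f hf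
  have hDC : (D : ℂ) ≠ 0 := by exact_mod_cast hD0
  have hmem : (D : ℂ) • f ∈ CuspForm.intLattice N k := by
    refine Submodule.subset_span fun n => ?_
    obtain ⟨m, hm⟩ := hD n
    refine ⟨m, ?_⟩
    rw [ModularFormClass.qCoeff, FunLike.coe_smul, ModularForm.qExpansion_smul one_pos hΓ, ← hm]
    simp
  have : f = (D : ℂ)⁻¹ • ((D : ℂ) • f) := by
    rw [smul_smul, inv_mul_cancel₀ hDC, one_smul]
  rw [this]
  exact Submodule.smul_mem _ _ (Submodule.subset_span hmem)

end Fermat.Agent.IntStruct
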